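import Fermat.Agent.S59.H59.TWGalLevel
import Fermat.Agent.Lib.Cheb.H476.FrobConj

/-!
# Row S59, leaf TW-GAL1 (helper59): the matrix form

`TWDiagMat p q r P α β` is the matrix form of `TWDiag`; `twDiagMat_exists` shows that a continuous
matrix representation `r₀` which is residually trivial and of determinant `1` on the inertia group
at `P | q` (`q ≡ 1 mod p`), with `r₀(Frob)` residually of distinct eigenvalues `α ≠ β`, has a
conjugate satisfying `TWDiagMat`.
-/

set_option autoImplicit false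
set_option linter.unusedSectionVars false
set_option linter.style.haveILetI false
set_option linter.unusedSimpArgs false

open IsLocalRing Polynomial
open scoped Pointwise

namespace Fermat.Agent.S59.H59

open Fermat.Agent.S53 Fermat.Agent.S56.H794 Fermat.Agent.Lib.Cheb.H476

/-! ### A commutative `p`-group with a unique subgroup of order `p` is cyclic -/

section group

variable {G : Type*} [Group G]

theorem exists_generator_h59 (H : Subgroup G) (hcomm : ∀ x ∈ H, ∀ y ∈ H, x * y = y * x)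
    {p v : ℕ} (hexp : ∀ x ∈ H, x ^ p ^ v = 1)
    (huniq : ∀ x ∈ H, ∀ y ∈ H, x ^ p = 1 → y ^ p = 1 → y ≠ 1 → ∃ j : ℕ, x = y ^ j) :
    ∃ y ∈ H, ∀ x ∈ H, ∃ k : ℕ, x = y ^ k := by
  classical
  -- the minimal exponent
  have hex : ∃ e : ℕ, ∀ x ∈ H, x ^ p ^ e = 1 := ⟨v, hexp⟩
  set e := Nat.find hex with he
  have hemin : ∀ x ∈ H, x ^ p ^ e = 1 := Nat.find_spec hex
  rcases Nat.eq_zero_or_pos e with h0 | hpos
  · refine ⟨1, H.one_mem, fun x hx => ⟨0, ?_⟩⟩
    have := hemin x hx
    rw [h0, pow_zero, pow_one] at this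
    rw [this, pow_zero]
  · have hlt : e - 1 < e := by omega
    have hnot := Nat.find_min hex hlt
    push Not at hnot
    obtain ⟨y, hyH, hy⟩ := hnot
    have hye : y ^ p ^ e = 1 := hemin y hyH
    have hy1p : (y ^ p ^ (e - 1)) ^ p = 1 := by
      rw [← pow_mul, ← pow_succ]
      have : e - 1 + 1 = e := by omega
      rw [this]; exact hye
    refine ⟨y, hyH, ?_⟩
    have key : ∀ d : ℕ, d ≤ e → ∀ x ∈ H, x ^ p ^ d = 1 → ∃ k : ℕ, x = y ^ k := by
      intro d
      induction d with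
      | zero =>
        intro _ x _ hx
        rw [pow_zero, pow_one] at hx
        exact ⟨0, by rw [hx, pow_zero]⟩
      | succ d ih =>
        intro hd x hxH hx
        have hx1p : (x ^ p ^ d) ^ p = 1 := by rw [← pow_mul, ← pow_succ]; exact hx
        obtain ⟨j, hj⟩ := huniq (x ^ p ^ d) (H.pow_mem hxH _) (y ^ p ^ (e - 1))
          (H.pow_mem hyH _) hx1p hy1p hy
        set z : G := y ^ (j * p ^ (e - 1 - d)) with hz
        have hzH : z ∈ H := H.pow_mem hyH _
        have hzd : z ^ p ^ d = x ^ p ^ d := by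
          rw [hj, hz, ← pow_mul, ← pow_mul, mul_assoc, ← pow_add, mul_comm]
          congr 2
          congr 1
          omega
        have hcz : Commute x z⁻¹ := (hcomm x hxH z⁻¹ (H.inv_mem hzH))
        have hx' : (x * z⁻¹) ^ p ^ d = 1 := by
          rw [hcz.mul_pow, inv_pow, hzd, mul_inv_cancel]
        obtain ⟨k', hk'⟩ := ih (by omega) (x * z⁻¹) (H.mul_mem hxH (H.inv_mem hzH)) hx'
        refine ⟨k' + j * p ^ (e - 1 - d), ?_⟩
        rw [pow_add, ← hk', ← hz, inv_mul_cancel_right]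
    intro x hx
    exact key e le_rfl x hx (hemin x hx)

end group

/-! ### Diagonal `2 × 2` matrices -/

section diag

variable {A : Type*} [CommRing A]

theorem eq_diagonal_h59 {M : Matrix (Fin 2) (Fin 2) A} (h01 : M 0 1 = 0) (h10 : M 1 0 = 0) :
    M = Matrix.diagonal (fun i => M i i) := by
  ext i j
  fin_cases i <;> fin_cases j <;> simp [h01, h10]

theorem pow_apply_diag_h59 {M : Matrix (Fin 2) (Fin 2) A} (h01 : M 0 1 = 0) (h10 : M 1 0 = 0)
    (k : ℕ) (i : Fin 2) : (M ^ k) i i = (M i i) ^ k := by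
  conv_lhs => rw [eq_diagonal_h59 h01 h10, Matrix.diagonal_pow]
  simp

theorem pow_eq_one_of_diag_h59 {M : Matrix (Fin 2) (Fin 2) A} (h01 : M 0 1 = 0)
    (h10 : M 1 0 = 0) {k : ℕ} (h : ∀ i, (M i i) ^ k = 1) : M ^ k = 1 := by
  rw [eq_diagonal_h59 h01 h10, Matrix.diagonal_pow]
  ext i j
  fin_cases i <;> fin_cases j <;> simp [h]

end diag

/-- **Matrix form of `TWDiag`.** -/
structure TWDiagMat (p q : ℕ) {A : Type} [CommRing A] [IsLocalRing A] (r : GQ →* M2 A)
    (P : ValuationSubring (AlgebraicClosure ℚ)) (α β : ResidueField A) : Prop where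
  diag : ∀ σ ∈ P.decompositionSubgroup ℚ, r σ 0 1 = 0 ∧ r σ 1 0 = 0
  frob : ∀ φ : GQ, P.IsFrobeniusAt φ q → residue A (r φ 0 0) = α ∧ residue A (r φ 1 1) = β
  inertia_res : ∀ σ ∈ P.inertiaSubgroupIn ℚ, ∀ i, r σ i i - 1 ∈ maximalIdeal A
  inertia_mul : ∀ σ ∈ P.inertiaSubgroupIn ℚ, r σ 0 0 * r σ 1 1 = 1
  inertia_pow : ∀ σ ∈ P.inertiaSubgroupIn ℚ, ∀ i, r σ i i ^ p ^ padicValNat p (q - 1) = 1
  inertia_cyclic : ∃ τ ∈ P.inertiaSubgroupIn ℚ, ∀ σ ∈ P.inertiaSubgroupIn ℚ,
    ∃ k : ℕ, ∀ i, r σ i i = r τ i i ^ k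

section main

variable {A : Type} [CommRing A] [IsLocalRing A] [IsNoetherianRing A]
  {p q : ℕ} {P : ValuationSubring (AlgebraicClosure ℚ)}

theorem inertia_le_decomposition_h59 {σ : GQ} (hσ : σ ∈ P.inertiaSubgroupIn ℚ) :
    σ ∈ P.decompositionSubgroup ℚ :=
  ((mem_inertiaSubgroupIn_iff' P σ).mp hσ).1

/-- the commutator of an element of the decomposition group with a Frobenius lies in inertia -/
theorem comm_frob_mem_inertia_h59 {σ φ : GQ} (hσ : σ ∈ P.decompositionSubgroup ℚ)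
    (hφ : P.IsFrobeniusAt φ q) : σ * φ * σ⁻¹ * φ⁻¹ ∈ P.inertiaSubgroupIn ℚ := by
  have h1 := isFrobeniusAt_conj σ hφ
  rw [MulAction.mem_stabilizer_iff.mp hσ] at h1
  exact mul_inv_mem_inertia_of_isFrobeniusAt hφ h1

/-- **TW-GAL1, matrix form with `r φ` already diagonal.** -/
theorem twDiagMat_of_diag_frob {r : GQ →* M2 A} (hr : MatCont r) (hp : p.Prime)
    (hpA : (p : A) ∈ maximalIdeal A) (hq : q.Prime) (hqp : p ∣ q - 1) (hP : P.LiesOverPrime q)
    (hres : ∀ τ ∈ P.inertiaSubgroupIn ℚ, EntIn (maximalIdeal A) (r τ - 1))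
    (hdet : ∀ τ ∈ P.inertiaSubgroupIn ℚ, (r τ).det = 1)
    {φ : GQ} (hφ : P.IsFrobeniusAt φ q) {a₀ a₁ : A} (hrφ : r φ = !![a₀, 0; 0, a₁])
    (hu : IsUnit (a₀ - a₁)) :
    TWDiagMat p q r P (residue A a₀) (residue A a₁) := by
  have hq1 : 1 ≤ q := hq.one_lt.le
  have hqne : q ≠ p := by
    rintro rfl
    have := Nat.le_of_dvd (by have := hq.two_le; omega) hqp
    have := hq.two_le
    omega
  -- `q ≡ 1 mod 𝔪`
  have hqA : (q : A) - 1 ∈ maximalIdeal A := by
    obtain ⟨c, hc⟩ := hqp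
    have : (q : A) - 1 = (p : A) * (c : A) := by
      have h1 : q = p * c + 1 := by omega
      rw [h1]; push_cast; ring
    rw [this]
    exact Ideal.mul_mem_right _ _ hpA
  have hres1 : residue A (q : A) = 1 := by
    rw [← sub_eq_zero, ← map_one (residue A), ← map_sub]
    exact (residue_eq_zero_iff _).mpr hqA
  have hne : residue A a₀ ≠ residue A a₁ := by
    intro h
    have : residue A (a₀ - a₁) = 0 := by rw [map_sub, h, sub_self]
    exact ((residue_ne_zero_iff_isUnit _).mpr hu) this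
  have hu0 : IsUnit (a₀ - q * a₁) := by
    rw [← residue_ne_zero_iff_isUnit, map_sub, map_mul, hres1, one_mul]
    exact sub_ne_zero.mpr hne
  have hu1 : IsUnit (a₁ - q * a₀) := by
    rw [← residue_ne_zero_iff_isUnit, map_sub, map_mul, hres1, one_mul]
    exact sub_ne_zero.mpr (Ne.symm hne)
  -- the eigenvalues are units
  have hφinv : r φ * r φ⁻¹ = 1 := by rw [← map_mul, mul_inv_cancel, map_one]
  have hφinv' : r φ⁻¹ * r φ = 1 := by rw [← map_mul, inv_mul_cancel, map_one]
  have hdetφ : IsUnit (a₀ * a₁) := by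
    have h1 : IsUnit (r φ).det := by
      have := congrArg Matrix.det hφinv
      rw [Matrix.det_mul, Matrix.det_one] at this
      exact IsUnit.of_mul_eq_one _ this
    rwa [hrφ, Matrix.det_fin_two_of, mul_zero, sub_zero] at h1
  have ha₀ : IsUnit a₀ := isUnit_of_mul_isUnit_left hdetφ
  have ha₁ : IsUnit a₁ := isUnit_of_mul_isUnit_right hdetφ
  -- the tame relation in the form `F T = T^q F`
  have hrel : ∀ τ ∈ P.inertiaSubgroupIn ℚ, r φ * r τ = r τ ^ q * r φ := by
    intro τ hτ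
    have h := rel_frob_h59 hr hp hpA hq hqne hP hres hφ hτ
    rw [map_mul, map_mul] at h
    calc r φ * r τ = r φ * r τ * (r φ⁻¹ * r φ) := by rw [hφinv', mul_one]
      _ = (r φ * r τ * r φ⁻¹) * r φ := by simp only [mul_assoc]
      _ = r τ ^ q * r φ := by rw [h]
  -- inertia is diagonal
  have key1 : ∀ τ ∈ P.inertiaSubgroupIn ℚ, r τ 0 1 = 0 ∧ r τ 1 0 = 0 := by
    intro τ hτ
    have h := hrel τ hτ
    rw [hrφ] at h
    have h01 := congrFun (congrFun h 0) 1
    have h10 := congrFun (congrFun h 1) 0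
    simp only [Matrix.mul_apply, Fin.sum_univ_two, Matrix.of_apply, Matrix.cons_val_zero,
      Matrix.cons_val_one, Matrix.cons_val', Matrix.cons_val_fin_one, mul_zero, zero_mul,
      add_zero, zero_add] at h01 h10
    exact offdiag_eq_zero_h59 (hres τ hτ) h01 h10 hu0 hu1
  have hresd : ∀ τ ∈ P.inertiaSubgroupIn ℚ, ∀ i, r τ i i - 1 ∈ maximalIdeal A := by
    intro τ hτ i
    have := hres τ hτ i i
    simpa using this
  -- the decomposition group is diagonal
  have key2 : ∀ σ ∈ P.decompositionSubgroup ℚ, r σ 0 1 = 0 ∧ r σ 1 0 = 0 := by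
    intro σ hσ
    have hτ' := comm_frob_mem_inertia_h59 hσ hφ
    obtain ⟨τ', hτ'def⟩ : ∃ τ' : GQ, τ' = σ * φ * σ⁻¹ * φ⁻¹ := ⟨_, rfl⟩
    rw [← hτ'def] at hτ'
    have hgrp : σ * φ = τ' * φ * σ := by rw [hτ'def]; group
    have h := congrArg r hgrp
    rw [map_mul, map_mul, map_mul, hrφ] at h
    obtain ⟨t01, t10⟩ := key1 τ' hτ'
    have h01 := congrFun (congrFun h 0) 1
    have h10 := congrFun (congrFun h 1) 0
    simp only [Matrix.mul_apply, Fin.sum_univ_two, Matrix.of_apply, Matrix.cons_val_zero,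
      Matrix.cons_val_one, Matrix.cons_val', Matrix.cons_val_fin_one, mul_zero, zero_mul,
      add_zero, zero_add, t01, t10] at h01 h10
    have d0 := hresd τ' hτ' 0
    have d1 := hresd τ' hτ' 1
    have hres0 : residue A (r τ' 0 0) = 1 := by
      rw [← sub_eq_zero, ← map_one (residue A), ← map_sub]
      exact (residue_eq_zero_iff _).mpr d0
    have hres1' : residue A (r τ' 1 1) = 1 := by
      rw [← sub_eq_zero, ← map_one (residue A), ← map_sub]
      exact (residue_eq_zero_iff _).mpr d1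
    have hv0 : IsUnit (a₁ - r τ' 0 0 * a₀) := by
      rw [← residue_ne_zero_iff_isUnit, map_sub, map_mul, hres0, one_mul]
      exact sub_ne_zero.mpr (Ne.symm hne)
    have hv1 : IsUnit (a₀ - r τ' 1 1 * a₁) := by
      rw [← residue_ne_zero_iff_isUnit, map_sub, map_mul, hres1', one_mul]
      exact sub_ne_zero.mpr hne
    constructor
    · have : (a₁ - r τ' 0 0 * a₀) * r σ 0 1 = 0 := by linear_combination h01
      exact (hv0.mul_right_eq_zero).mp this
    · have : (a₀ - r τ' 1 1 * a₁) * r σ 1 0 = 0 := by linear_combination h10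
      exact (hv1.mul_right_eq_zero).mp this
  have hmul : ∀ τ ∈ P.inertiaSubgroupIn ℚ, r τ 0 0 * r τ 1 1 = 1 := by
    intro τ hτ
    have h := hdet τ hτ
    rw [Matrix.det_fin_two, (key1 τ hτ).1, zero_mul, sub_zero] at h
    exact h
  have hpow : ∀ τ ∈ P.inertiaSubgroupIn ℚ, ∀ i, r τ i i ^ p ^ padicValNat p (q - 1) = 1 := by
    intro τ hτ i
    obtain ⟨t01, t10⟩ := key1 τ hτ
    have h := hrel τ hτ
    rw [hrφ] at h
    have h00 := congrFun (congrFun h 0) 0
    have h11 := congrFun (congrFun h 1) 1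
    simp only [Matrix.mul_apply, Fin.sum_univ_two, Matrix.of_apply, Matrix.cons_val_zero,
      Matrix.cons_val_one, Matrix.cons_val', Matrix.cons_val_fin_one, mul_zero, zero_mul,
      add_zero, zero_add, t01, t10] at h00 h11
    have hii : ∀ i : Fin 2, r τ i i ^ q = r τ i i := by
      rw [Fin.forall_fin_two]
      constructor
      · rw [← pow_apply_diag_h59 t01 t10 q 0]
        have : a₀ * ((r τ ^ q) 0 0 - r τ 0 0) = 0 := by linear_combination -h00
        exact sub_eq_zero.mp ((ha₀.mul_right_eq_zero).mp this)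
      · rw [← pow_apply_diag_h59 t01 t10 q 1]
        have : a₁ * ((r τ ^ q) 1 1 - r τ 1 1) = 0 := by linear_combination -h11
        exact sub_eq_zero.mp ((ha₁.mul_right_eq_zero).mp this)
    have hunit : IsUnit (r τ i i) := by
      have h2 := hmul τ hτ
      have hall : ∀ i : Fin 2, IsUnit (r τ i i) := by
        rw [Fin.forall_fin_two]
        exact ⟨IsUnit.of_mul_eq_one _ h2, IsUnit.of_mul_eq_one _ (by rw [mul_comm]; exact h2)⟩
      exact hall i
    have hq1' : r τ i i ^ (q - 1) = 1 := by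
      have h1 : r τ i i * r τ i i ^ (q - 1) = r τ i i * 1 := by
        rw [← pow_succ', mul_one]
        have : q - 1 + 1 = q := by omega
        rw [this]; exact hii i
      exact hunit.mul_left_cancel h1
    have hqm : q - 1 ≠ 0 := by have := hq.two_le; omega
    exact pow_ppart_eq_one_h59 hp hpA (hresd τ hτ i) hqm hq1'
  refine ⟨key2, ?_, hresd, hmul, hpow, ?_⟩
  · -- Frobenius
    intro φ' hφ'
    have hτ := mul_inv_mem_inertia_of_isFrobeniusAt hφ hφ'
    obtain ⟨τ, hτdef⟩ : ∃ τ : GQ, τ = φ' * φ⁻¹ := ⟨_, rfl⟩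
    rw [← hτdef] at hτ
    have hgrp : φ' = τ * φ := by rw [hτdef]; group
    have h := congrArg r hgrp
    rw [map_mul, hrφ] at h
    obtain ⟨t01, t10⟩ := key1 τ hτ
    have h00 := congrFun (congrFun h 0) 0
    have h11 := congrFun (congrFun h 1) 1
    simp only [Matrix.mul_apply, Fin.sum_univ_two, Matrix.of_apply, Matrix.cons_val_zero,
      Matrix.cons_val_one, Matrix.cons_val', Matrix.cons_val_fin_one, mul_zero, zero_mul,
      add_zero, zero_add, t01, t10] at h00 h11
    have hres0 : residue A (r τ 0 0) = 1 := by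
      rw [← sub_eq_zero, ← map_one (residue A), ← map_sub]
      exact (residue_eq_zero_iff _).mpr (hresd τ hτ 0)
    have hres1' : residue A (r τ 1 1) = 1 := by
      rw [← sub_eq_zero, ← map_one (residue A), ← map_sub]
      exact (residue_eq_zero_iff _).mpr (hresd τ hτ 1)
    rw [h00, h11, map_mul, map_mul, hres0, hres1', one_mul, one_mul]
    exact ⟨rfl, rfl⟩
  · -- cyclicity
    set v := padicValNat p (q - 1) with hv
    let f : GQ →* (M2 A)ˣ := r.toHomUnits
    have hf : ∀ σ, ((f σ : (M2 A)ˣ) : M2 A) = r σ := fun σ => rfl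
    have hfpow : ∀ (σ : GQ) (k : ℕ), f σ ^ k = 1 ↔ r σ ^ k = 1 := by
      intro σ k
      rw [Units.ext_iff, Units.val_pow_eq_pow_val, hf, Units.val_one]
    set H : Subgroup (M2 A)ˣ := (P.inertiaSubgroupIn ℚ).map f with hH
    have hcomm : ∀ x ∈ H, ∀ y ∈ H, x * y = y * x := by
      rintro _ ⟨σ, hσ, rfl⟩ _ ⟨τ, hτ, rfl⟩
      apply Units.ext
      rw [Units.val_mul, Units.val_mul, hf, hf]
      exact rel_comm_h59 hr hp hpA hq hqne hP hres hσ hτ
    have hexp : ∀ x ∈ H, x ^ p ^ v = 1 := by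
      rintro _ ⟨σ, hσ, rfl⟩
      rw [hfpow]
      exact pow_eq_one_of_diag_h59 (key1 σ hσ).1 (key1 σ hσ).2 (hpow σ hσ)
    have huniq : ∀ x ∈ H, ∀ y ∈ H, x ^ p = 1 → y ^ p = 1 → y ≠ 1 → ∃ j : ℕ, x = y ^ j := by
      rintro _ ⟨σ, hσ, rfl⟩ _ ⟨τ, hτ, rfl⟩ hσp hτp hne1
      rw [hfpow] at hσp hτp
      have hne' : r τ ≠ 1 := by
        intro h
        apply hne1
        apply Units.ext
        rw [hf, h, Units.val_one]
      obtain ⟨j, -, hj⟩ := exists_pow_eq_of_pow_prime_h59 hr hp hpA hq hqne hP hres hσ hτ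
        hσp hτp hne'
      refine ⟨j, ?_⟩
      apply Units.ext
      rw [Units.val_pow_eq_pow_val, hf, hf, hj]
    obtain ⟨y, ⟨τ, hτ, rfl⟩, hy⟩ := exists_generator_h59 H hcomm hexp huniq
    refine ⟨τ, hτ, fun σ hσ => ?_⟩
    obtain ⟨k, hk⟩ := hy (f σ) ⟨σ, hσ, rfl⟩
    refine ⟨k, fun i => ?_⟩
    have h1 : r σ = r τ ^ k := by
      have := congrArg (fun u : (M2 A)ˣ => (u : M2 A)) hk
      simpa [Units.val_pow_eq_pow_val, hf] using this
    rw [h1, pow_apply_diag_h59 (key1 τ hτ).1 (key1 τ hτ).2]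

end main

end Fermat.Agent.S59.H59
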