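import Fermat.Agent.S59.H59.TWGalSpec
import Fermat.Agent.S59.H59.TWGalMat
import Fermat.Agent.S56.H966.CondBC
import Fermat.Agent.S30.H870.Cyclo

/-!
# Row S59, leaf TW-GAL1 (helper59): the local structure at a Taylor–Wiles prime

`twGal1 : TWGal1Statement`.
-/

set_option autoImplicit false
set_option linter.unusedSectionVars false
set_option linter.style.haveILetI false
set_option linter.unusedSimpArgs false

open IsLocalRing Polynomial
open scoped Pointwise

namespace Fermat.Agent.S59.H59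

open Fermat.Agent.S53 Fermat.Agent.S56.H794 Fermat.Agent.Lib.Cheb.H476

section conj

variable {A : Type} [CommRing A] [IsLocalRing A] [IsNoetherianRing A]
  [IsAdicComplete (maximalIdeal A) A]
  {p q : ℕ} {P : ValuationSubring (AlgebraicClosure ℚ)}

/-- **TW-GAL1, matrix form.** -/
theorem twDiagMat_exists {r₀ : GQ →* M2 A} (hr₀ : MatCont r₀) (hp : p.Prime)
    (hpA : (p : A) ∈ maximalIdeal A) (hq : q.Prime) (hqp : p ∣ q - 1) (hP : P.LiesOverPrime q)
    (hres : ∀ τ ∈ P.inertiaSubgroupIn ℚ, EntIn (maximalIdeal A) (r₀ τ - 1))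
    (hdet : ∀ τ ∈ P.inertiaSubgroupIn ℚ, (r₀ τ).det = 1)
    {φ : GQ} (hφ : P.IsFrobeniusAt φ q) {α β : ResidueField A} (hαβ : α ≠ β)
    (hchar : ((r₀ φ).map (residue A)).charpoly = (X - C α) * (X - C β)) :
    ∃ Q : (M2 A)ˣ, TWDiagMat p q (conjRep Q r₀) P α β := by
  obtain ⟨a₀, a₁, ha₀, ha₁, htr, hdetF⟩ := exists_eigenvalues_h59 (r₀ φ) hαβ hchar
  have hu : IsUnit (a₀ - a₁) := by
    rw [← residue_ne_zero_iff_isUnit, map_sub, ha₀, ha₁]
    exact sub_ne_zero.mpr hαβ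
  obtain ⟨Pm, hPm⟩ := exists_diagonalizer_h59 (r₀ φ) htr hdetF hu
  refine ⟨Pm⁻¹, ?_⟩
  have hrφ : conjRep Pm⁻¹ r₀ φ = !![a₀, 0; 0, a₁] := by
    rw [conjRep_apply, inv_inv, mul_assoc, hPm, ← mul_assoc, Units.inv_mul, one_mul]
  have hres' : ∀ τ ∈ P.inertiaSubgroupIn ℚ,
      EntIn (maximalIdeal A) (conjRep Pm⁻¹ r₀ τ - 1) := by
    intro τ hτ
    have h1 : conjRep Pm⁻¹ r₀ τ - 1 =
        ((Pm⁻¹ : (M2 A)ˣ) : M2 A) * (r₀ τ - 1) * (((Pm⁻¹)⁻¹ : (M2 A)ˣ) : M2 A) := by
      simp [mul_sub, sub_mul]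
    rw [h1]
    exact entry_mul_mul_mem _ _ _ _ (hres τ hτ)
  have hdet' : ∀ τ ∈ P.inertiaSubgroupIn ℚ, (conjRep Pm⁻¹ r₀ τ).det = 1 := by
    intro τ hτ
    rw [conjRep_apply, Matrix.det_units_conj]
    exact hdet τ hτ
  have := twDiagMat_of_diag_frob (hr₀.conj Pm⁻¹) hp hpA hq hqp hP hres' hdet' hφ hrφ hu
  rwa [ha₀, ha₁] at this

end conj

section transport

variable {A : Type} [CommRing A] [IsLocalRing A]
  {p q : ℕ} {P : ValuationSubring (AlgebraicClosure ℚ)}

/-- From the matrix form to `TWDiag`. -/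
theorem twDiag_of_mat {ρ : GaloisRepAdic A} {r : GQ →* M2 A} {hr : MatCont r}
    (e : GaloisRepAdic.Equiv ρ (toAdic r hr)) {α β : ResidueField A}
    (h : TWDiagMat p q r P α β) :
    ∃ (b : Module.Basis (Fin 2) A ρ.V) (ξ : Fin 2 → GQ → A), TWDiag p q ρ P α β b ξ := by
  let e' : ρ.V ≃ₗ[A] (Fin 2 → A) := e.toLinearEquiv
  refine ⟨Module.Basis.ofEquivFun e', fun i σ => r σ i i, ?_, h.frob, h.inertia_res,
    h.inertia_mul, h.inertia_pow, h.inertia_cyclic⟩
  intro σ hσ i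
  obtain ⟨h01, h10⟩ := h.diag σ hσ
  apply e'.injective
  have hb : e' (Module.Basis.ofEquivFun e' i) = Pi.single i 1 := by
    rw [Module.Basis.coe_ofEquivFun, LinearEquiv.apply_symm_apply]
  have h1 : e' (ρ.ρ σ (Module.Basis.ofEquivFun e' i)) =
      (r σ).mulVec (e' (Module.Basis.ofEquivFun e' i)) := e.map_apply σ _
  rw [h1, map_smul, hb, Matrix.mulVec_single_one]
  ext j
  fin_cases i <;> fin_cases j <;> simp [h01, h10]

end transport

section final

variable {A : Type} [CommRing A] [IsLocalRing A]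

/-- residual triviality in matrix terms -/
theorem entIn_of_residual_eq_one {ρ : GaloisRepAdic A} {r : GQ →* M2 A} {hr : MatCont r}
    (e : GaloisRepAdic.Equiv ρ (toAdic r hr)) {τ : GQ} (hτ : ρ.residual.ρ τ = 1) :
    EntIn (maximalIdeal A) (r τ - 1) := by
  obtain ⟨e1⟩ := residual_toAdic r hr
  let E := e.residual.trans e1
  have h1 : ∀ y : Fin 2 → ResidueField A, ((r τ).map (residue A)).mulVec y = y := by
    intro y
    obtain ⟨x, rfl⟩ := E.toLinearEquiv.surjective y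
    have := E.map_apply τ x
    rw [hτ, Module.End.one_apply] at this
    exact this.symm
  have h2 : (r τ).map (residue A) = 1 :=
    mulVec_injective_M2 fun v => by rw [h1 v, Matrix.one_mulVec]
  intro i j
  rw [← residue_eq_zero_iff, Matrix.sub_apply, map_sub]
  have h3 := congrFun (congrFun h2 i) j
  rw [Matrix.map_apply] at h3
  rw [h3]
  by_cases hij : i = j
  · subst hij; simp
  · simp [hij]

/-- the residual characteristic polynomial in matrix terms -/
theorem charpoly_map_residue_eq {ρ : GaloisRepAdic A} {r : GQ →* M2 A} {hr : MatCont r}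
    (e : GaloisRepAdic.Equiv ρ (toAdic r hr)) (σ : GQ) :
    ((r σ).map (residue A)).charpoly = LinearMap.charpoly (ρ.residual.ρ σ) := by
  obtain ⟨e1⟩ := residual_toAdic r hr
  let E := e.residual.trans e1
  have h1 : (toRes (mapRep (residue A) r) hr.factors_residue).ρ σ =
      E.toLinearEquiv.conj (ρ.residual.ρ σ) := by
    refine LinearMap.ext fun y => ?_
    rw [LinearEquiv.conj_apply_apply, E.map_apply, LinearEquiv.apply_symm_apply]
  have h2 : LinearMap.charpoly ((toRes (mapRep (residue A) r) hr.factors_residue).ρ σ) =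
      ((r σ).map (residue A)).charpoly :=
    Matrix.charpoly_toLin' ((r σ).map (residue A))
  rw [← h2, h1, LinearEquiv.charpoly_conj]

/-- the determinant on inertia at `q ≠ p` -/
theorem det_eq_one_of_detIsCyclotomic [IsNoetherianRing A] {ρ : GaloisRepAdic A}
    {r : GQ →* M2 A} {hr : MatCont r} (e : GaloisRepAdic.Equiv ρ (toAdic r hr)) {p q : ℕ}
    [Fact p.Prime] (hq : q.Prime) (hqp : q ≠ p) (hdet : ρ.DetIsCyclotomic p)
    {P : ValuationSubring (AlgebraicClosure ℚ)} (hP : P.LiesOverPrime q) {τ : GQ}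
    (hτ : τ ∈ P.inertiaSubgroupIn ℚ) : (r τ).det = 1 := by
  have hd := Fermat.Agent.S56.H966.detIsCyclotomic_of_isEquiv ⟨e⟩ hdet
  have h1 : ∀ n : ℕ, (r τ).det - 1 ∈ maximalIdeal A ^ n := by
    intro n
    have h2 := hd.2 n τ 1 (fun μ hμ => by
      rw [pow_one]
      exact Fermat.Agent.S30.H870.inertia_root_eq p hq hqp P hP τ hτ hμ)
    have h3 : LinearMap.det ((toAdic r hr).ρ τ) = (r τ).det := LinearMap.det_toLin' (r τ)
    rw [h3, Nat.cast_one] at h2
    have h4 : Ideal.span {((p ^ n : ℕ) : A)} ≤ maximalIdeal A ^ n := by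
      rw [Ideal.span_le, Set.singleton_subset_iff, Nat.cast_pow]
      exact Ideal.pow_mem_pow hd.1 n
    exact h4 h2
  exact sub_eq_zero.mp (eq_zero_of_forall_mem_pow_h59 h1)

/-- **TW-GAL1.** -/
theorem twGal1 : TWGal1Statement := by
  intro p q _ hq hqp A _ _ _ _ hpA ρ hdet hunr P hP φ hφ α β hαβ hchar
  have hp : p.Prime := Fact.out
  have hqne : q ≠ p := by
    rintro rfl
    have := Nat.le_of_dvd (by have := hq.two_le; omega) hqp
    have := hq.two_le
    omega
  obtain ⟨r₀, hr₀, ⟨e₀⟩⟩ := exists_toAdic ρ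
  have hres : ∀ τ ∈ P.inertiaSubgroupIn ℚ, EntIn (maximalIdeal A) (r₀ τ - 1) :=
    fun τ hτ => entIn_of_residual_eq_one e₀ (hunr P hP τ hτ)
  have hdet' : ∀ τ ∈ P.inertiaSubgroupIn ℚ, (r₀ τ).det = 1 :=
    fun τ hτ => det_eq_one_of_detIsCyclotomic e₀ hq hqne hdet hP hτ
  have hchar' : ((r₀ φ).map (residue A)).charpoly = (X - C α) * (X - C β) := by
    rw [charpoly_map_residue_eq e₀ φ, hchar]
  obtain ⟨Q, hQ⟩ := twDiagMat_exists hr₀ hp hpA hq hqp hP hres hdet' hφ hαβ hchar'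
  obtain ⟨e1⟩ := toAdic_conjRep_isEquiv r₀ hr₀ Q
  exact twDiag_of_mat (e₀.trans e1) hQ

end final

end Fermat.Agent.S59.H59
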