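import Fermat.Prelude.Def_GaloisRep_DeformationRingData
import Fermat.Prelude.Def_GaloisRep_DeformationCondition
import Fermat.Agent.S53.Dict
import Fermat.Agent.S53.GlueInj

/-!
# Row S59, leaf TW-GAL2 (helper59): deformation-theoretic plumbing

* `D_baseChange_of_surjective_h59` : a deformation condition is stable under base change along
  a surjection of complete Noetherian local `𝒪`-algebras.
* `residual_isEquiv_baseChange_h59` : base change of a deformation of `ρ̄` is a deformation of `ρ̄`.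
* `baseChangeAlong_id_isEquiv_h59` : base change along the identity.
* `universal_quotient_h59` : if `f : R_Q ↠ R'` is a surjection of complete Noetherian local
  `𝒪`-algebras such that the push-forward of the universal deformation of type `𝒟Q` is of type
  `𝒟min`, and `ker f` is killed by every map `R_Q → R_min` classifying the universal deformation of
  type `𝒟min`, then `R' ≅ R_min`: the classifying map `π : R_Q → R_min` is surjective with kernel
  `ker f`.
-/

set_option autoImplicit false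
set_option linter.unusedSectionVars false
set_option linter.style.haveILetI false

open IsLocalRing GaloisRep

namespace Fermat.Agent.S59.H59

open Fermat.Agent.S53 Fermat.Agent.S53.H113

section plumbing

variable {𝒪 : Type} [CommRing 𝒪] [IsLocalRing 𝒪]

/-- A deformation condition is stable under base change along surjections of complete
Noetherian local `𝒪`-algebras. -/
theorem D_baseChange_of_surjective_h59
    {𝒟 : ∀ ⦃A : Type⦄ [CommRing A] [IsLocalRing A] [Algebra 𝒪 A], GaloisRepAdic A → Prop}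
    (hDC : IsDeformationCondition 𝒪 𝒟)
    {A B : Type} [CommRing A] [IsLocalRing A] [IsNoetherianRing A]
    [IsAdicComplete (maximalIdeal A) A] [Algebra 𝒪 A]
    [CommRing B] [IsLocalRing B] [IsNoetherianRing B]
    [IsAdicComplete (maximalIdeal B) B] [Algebra 𝒪 B]
    (hlocA : IsLocalHom (algebraMap 𝒪 A))
    (hsurjA : Function.Surjective (IsLocalRing.residue A ∘ algebraMap 𝒪 A))
    (hlocB : IsLocalHom (algebraMap 𝒪 B))
    (hsurjB : Function.Surjective (IsLocalRing.residue B ∘ algebraMap 𝒪 B))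
    (f : A →ₐ[𝒪] B) (hf : IsLocalHom (f : A →+* B)) (hfs : Function.Surjective f)
    {ρ : GaloisRepAdic A} (h : 𝒟 ρ) : 𝒟 (ρ.baseChangeAlong (f : A →+* B) hf) := by
  rw [hDC.iff_forall_surjective hlocB hsurjB]
  intro C _ _ _ hC q hq hqs
  have hqf : IsLocalHom ((q.comp f : A →ₐ[𝒪] C) : A →+* C) := isLocalHom_algHom_of_test hC _
  have h1 := (hDC.iff_forall_surjective hlocA hsurjA ρ).mp h hC (q.comp f) hqf (hqs.comp hfs)
  exact hDC.of_isEquiv hC (isEquiv_symm (baseChangeAlong_comp_isEquiv' (f : A →+* B) hf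
    (q : B →+* C) hq ((q.comp f : A →ₐ[𝒪] C) : A →+* C) hqf rfl ρ)) h1

/-- Base change of a deformation of `ρ̄` is a deformation of `ρ̄`. -/
theorem residual_isEquiv_baseChange_h59 (ρbar : ResidualGaloisRep (ResidueField 𝒪))
    {A B : Type} [CommRing A] [IsLocalRing A] [Algebra 𝒪 A] [IsLocalHom (algebraMap 𝒪 A)]
    [CommRing B] [IsLocalRing B] [Algebra 𝒪 B] [IsLocalHom (algebraMap 𝒪 B)]
    (f : A →ₐ[𝒪] B) (hf : IsLocalHom (f : A →+* B)) (ρ : GaloisRepAdic A)
    (h : ρ.residual.IsEquiv (ρbar.baseChangeAlong (ResidueField.map (algebraMap 𝒪 A)))) :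
    (ρ.baseChangeAlong (f : A →+* B) hf).residual.IsEquiv
      (ρbar.baseChangeAlong (ResidueField.map (algebraMap 𝒪 B))) := by
  obtain ⟨rb, hrb, e0⟩ := exists_toRes ρbar
  obtain ⟨r, hr, hlift, e1⟩ := exists_lift_of_residual_isEquiv ρbar rb hrb e0 ρ h
  have e2 := isEquiv_trans (isEquiv_baseChangeAlong (f : A →+* B) hf e1)
    (baseChangeAlong_toAdic (f : A →+* B) hf r hr)
  have hlift' : ∀ σ, (mapRep (f : A →+* B) r σ).map (residue B) =
      (rb σ).map (ResidueField.map (algebraMap 𝒪 B)) := by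
    intro σ
    ext i j
    have h1 := congrFun (congrFun (hlift σ) i) j
    rw [Matrix.map_apply, Matrix.map_apply] at h1
    rw [Matrix.map_apply, Matrix.map_apply, mapRep_apply_apply]
    haveI := hf
    have h2 : residue B ((f : A →+* B) (r σ i j)) =
        ResidueField.map (f : A →+* B) (residue A (r σ i j)) := rfl
    rw [h2, h1]
    obtain ⟨c, hc⟩ := residue_surjective (rb σ i j)
    rw [← hc]
    show ResidueField.map (f : A →+* B) (ResidueField.map (algebraMap 𝒪 A) (residue 𝒪 c)) =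
      ResidueField.map (algebraMap 𝒪 B) (residue 𝒪 c)
    rw [ResidueField.map_residue, ResidueField.map_residue, ResidueField.map_residue]
    congr 1
    exact f.commutes c
  have e3 := residual_isEquiv_of_lift ρbar rb hrb e0 (mapRep (f : A →+* B) r)
    (hr.map (f : A →+* B) hf) hlift'
  obtain ⟨e2'⟩ := e2
  obtain ⟨e3'⟩ := e3
  exact ⟨e2'.residual.trans e3'⟩

/-- Base change along the identity. -/
theorem baseChangeAlong_id_isEquiv_h59 {A : Type} [CommRing A] [IsLocalRing A]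
    (φ : A →+* A) (hφ : IsLocalHom φ) (hid : ∀ a, φ a = a) (ρ : GaloisRepAdic A) :
    (ρ.baseChangeAlong φ hφ).IsEquiv ρ := by
  obtain ⟨r, hr, e⟩ := exists_toAdic ρ
  have e1 := isEquiv_baseChangeAlong φ hφ e
  have e2 := baseChangeAlong_toAdic φ hφ r hr
  have e3 : (toAdic (mapRep φ r) (hr.map φ hφ)).IsEquiv (toAdic r hr) := by
    rw [toAdic_isEquiv_iff]
    refine ⟨1, fun σ => ?_⟩
    rw [Units.val_one, one_mul, mul_one]
    ext i j
    rw [mapRep_apply_apply, hid]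
  exact isEquiv_trans e1 (isEquiv_trans e2 (isEquiv_trans e3 (isEquiv_symm e)))

end plumbing

section universal

variable {𝒪 : Type} [CommRing 𝒪] [IsDomain 𝒪] [IsDiscreteValuationRing 𝒪]
  [IsAdicComplete (maximalIdeal 𝒪) 𝒪]
  {ρbar : ResidualGaloisRep (ResidueField 𝒪)}
  {𝒟Q 𝒟min : ∀ ⦃A : Type⦄ [CommRing A] [IsLocalRing A] [Algebra 𝒪 A], GaloisRepAdic A → Prop}

/-- **Quotients of universal deformation rings.** -/
theorem universal_quotient_h59
    (h3 : ∀ ⦃A : Type⦄ [CommRing A] [IsLocalRing A] [Algebra 𝒪 A] (ρ : GaloisRepAdic A),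
      𝒟min ρ → 𝒟Q ρ)
    (DQ : DeformationRingData 𝒪 ρbar 𝒟Q) (Dmin : DeformationRingData 𝒪 ρbar 𝒟min)
    {R' : Type} [CommRing R'] [IsLocalRing R'] [IsNoetherianRing R']
    [IsAdicComplete (maximalIdeal R') R'] [Algebra 𝒪 R'] [IsLocalHom (algebraMap 𝒪 R')]
    (hres' : Function.Surjective (IsLocalRing.residue R' ∘ algebraMap 𝒪 R'))
    (f : DQ.R →ₐ[𝒪] R') (hfs : Function.Surjective f) (hfl : IsLocalHom (f : DQ.R →+* R'))
    (h1 : 𝒟min (DQ.ρ.baseChangeAlong (f : DQ.R →+* R') hfl))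
    (h2 : ∀ (π₁ : DQ.R →ₐ[𝒪] Dmin.R) (hπ : IsLocalHom (π₁ : DQ.R →+* Dmin.R)),
      (DQ.ρ.baseChangeAlong (π₁ : DQ.R →+* Dmin.R) hπ).IsEquiv Dmin.ρ →
      RingHom.ker (f : DQ.R →+* R') ≤ RingHom.ker (π₁ : DQ.R →+* Dmin.R)) :
    ∃ π : DQ.R →ₐ[𝒪] Dmin.R, Function.Surjective π ∧
      RingHom.ker (π : DQ.R →+* Dmin.R) = RingHom.ker (f : DQ.R →+* R') ∧
      ∃ hπ : IsLocalHom (π : DQ.R →+* Dmin.R),
        (DQ.ρ.baseChangeAlong (π : DQ.R →+* Dmin.R) hπ).IsEquiv Dmin.ρ := by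
  have hresρ' := residual_isEquiv_baseChange_h59 ρbar f hfl DQ.ρ DQ.residual_isEquiv
  -- the classifying maps
  obtain ⟨π₁, ⟨hπ₁, e₁⟩, -⟩ := DQ.universal Dmin.R Dmin.residue_surjective Dmin.ρ
    (h3 _ Dmin.isOfType) Dmin.residual_isEquiv
  obtain ⟨ψ, ⟨hψ, e₂⟩, -⟩ := Dmin.universal R' hres' _ h1 hresρ'
  obtain ⟨χ, -, huniqχ⟩ := DQ.universal R' hres' _ (h3 _ h1) hresρ'
  have hψπ : IsLocalHom ((ψ.comp π₁ : DQ.R →ₐ[𝒪] R') : DQ.R →+* R') :=
    isLocalHom_algHom inferInstance hres' _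
  have hA : ψ.comp π₁ = χ := by
    refine huniqχ _ ⟨hψπ, ?_⟩
    refine isEquiv_trans (isEquiv_symm (baseChangeAlong_comp_isEquiv' (π₁ : DQ.R →+* Dmin.R) hπ₁
      (ψ : Dmin.R →+* R') hψ _ hψπ rfl DQ.ρ)) ?_
    exact isEquiv_trans (isEquiv_baseChangeAlong (ψ : Dmin.R →+* R') hψ e₁) e₂
  have hB : f = χ := huniqχ _ ⟨hfl, isEquiv_refl _⟩
  have hfψ : ∀ x, f x = ψ (π₁ x) := by
    intro x
    rw [hB, ← hA]
    rfl
  have hker : RingHom.ker (π₁ : DQ.R →+* Dmin.R) = RingHom.ker (f : DQ.R →+* R') := by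
    refine le_antisymm (fun x hx => ?_) (h2 π₁ hπ₁ e₁)
    rw [RingHom.mem_ker] at hx ⊢
    show f x = 0
    have hx' : π₁ x = 0 := hx
    rw [hfψ, hx', map_zero]
  refine ⟨π₁, ?_, hker, hπ₁, e₁⟩
  -- surjectivity: `ψ` is injective
  have hψinj : Function.Injective ψ := by
    -- the factorisation `π̄ : R' → R_min` of `π₁`
    let E := Ideal.quotientKerAlgEquivOfSurjective hfs
    have hle : ∀ a ∈ RingHom.ker f, π₁ a = 0 := by
      intro a ha
      have : a ∈ RingHom.ker (π₁ : DQ.R →+* Dmin.R) := by rw [hker]; exact ha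
      exact this
    let πbar : R' →ₐ[𝒪] Dmin.R :=
      (Ideal.Quotient.liftₐ (RingHom.ker f) π₁ hle).comp (E.symm : R' →ₐ[𝒪] _)
    have hπbar : ∀ x, πbar (f x) = π₁ x := by
      intro x
      have h0 : E.symm (f x) = Ideal.Quotient.mk (RingHom.ker f) x := by
        rw [AlgEquiv.symm_apply_eq]
        rfl
      show (Ideal.Quotient.liftₐ (RingHom.ker f) π₁ hle) (E.symm (f x)) = π₁ x
      rw [h0]
      rfl
    have hπbarl : IsLocalHom (πbar : R' →+* Dmin.R) :=
      isLocalHom_algHom inferInstance Dmin.residue_surjective _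
    obtain ⟨ω, -, huniqω⟩ := Dmin.universal Dmin.R Dmin.residue_surjective Dmin.ρ
      Dmin.isOfType Dmin.residual_isEquiv
    have hidl : IsLocalHom ((AlgHom.id 𝒪 Dmin.R : Dmin.R →ₐ[𝒪] Dmin.R) : Dmin.R →+* Dmin.R) :=
      isLocalHom_algHom inferInstance Dmin.residue_surjective _
    have hC : AlgHom.id 𝒪 Dmin.R = ω :=
      huniqω _ ⟨hidl, baseChangeAlong_id_isEquiv_h59 _ hidl (fun _ => rfl) Dmin.ρ⟩
    have hcl : IsLocalHom ((πbar.comp ψ : Dmin.R →ₐ[𝒪] Dmin.R) : Dmin.R →+* Dmin.R) :=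
      isLocalHom_algHom inferInstance Dmin.residue_surjective _
    have hπf : ((πbar : R' →+* Dmin.R)).comp (f : DQ.R →+* R') = (π₁ : DQ.R →+* Dmin.R) := by
      ext x
      exact hπbar x
    have hD : πbar.comp ψ = ω := by
      refine huniqω _ ⟨hcl, ?_⟩
      -- `ρ_min ⊗ (π̄ ψ) ≅ (ρ_min ⊗ ψ) ⊗ π̄ ≅ (ρ_Q ⊗ f) ⊗ π̄ ≅ ρ_Q ⊗ π₁ ≅ ρ_min`
      refine isEquiv_trans (isEquiv_symm (baseChangeAlong_comp_isEquiv' (ψ : Dmin.R →+* R') hψ
        (πbar : R' →+* Dmin.R) hπbarl _ hcl rfl Dmin.ρ)) ?_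
      refine isEquiv_trans (isEquiv_baseChangeAlong (πbar : R' →+* Dmin.R) hπbarl e₂) ?_
      refine isEquiv_trans (baseChangeAlong_comp_isEquiv' (f : DQ.R →+* R') hfl
        (πbar : R' →+* Dmin.R) hπbarl (π₁ : DQ.R →+* Dmin.R) hπ₁ hπf DQ.ρ) e₁
    intro y y' hy
    have h5 : ∀ z, πbar (ψ z) = z := by
      intro z
      have := congrArg (fun g : Dmin.R →ₐ[𝒪] Dmin.R => g z) (hD.trans hC.symm)
      exact this
    rw [← h5 y, ← h5 y', hy]
  intro y
  obtain ⟨x, hx⟩ := hfs (ψ y)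
  refine ⟨x, hψinj ?_⟩
  rw [← hfψ, hx]

end universal

end Fermat.Agent.S59.H59
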