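import Fermat.Agent.S59.H59.TWGal1
import Fermat.Agent.S59.H59.TWGal2Aux
import Fermat.Agent.S53.H596.PowerSeriesCNL

/-!
# Row S59, leaf TW-GAL2 (helper59): `R_Q / (δ_j - 1) ≅ R_min`

`twGal2 : TWGal2Statement`.
-/

set_option autoImplicit false
set_option linter.unusedSectionVars false
set_option linter.style.haveILetI false
set_option linter.unusedSimpArgs false

open IsLocalRing Polynomial GaloisRep
open scoped Pointwise TensorProduct

namespace Fermat.Agent.S59.H59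

open Fermat.Agent.S53 Fermat.Agent.S53.H113 Fermat.Agent.Lib.Cheb.H476

section tensor

variable {A B : Type} [CommRing A] [CommRing B] {V : Type} [AddCommGroup V] [Module A V]

/-- An endomorphism congruent to the identity modulo `I` becomes the identity after a base
change killing `I`. -/
theorem baseChange_eq_one_h59 (φ : A →+* B) (g : V →ₗ[A] V) (I : Ideal A)
    (hI : ∀ a ∈ I, φ a = 0) (h : ∀ v, g v - v ∈ I • (⊤ : Submodule A V)) :
    letI : Algebra A B := φ.toAlgebra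
    g.baseChange B = 1 := by
  letI : Algebra A B := φ.toAlgebra
  have hkill : ∀ x ∈ I • (⊤ : Submodule A V), ∀ c : B, c ⊗ₜ[A] x = 0 := by
    intro x hx c
    refine Submodule.smul_induction_on (p := fun x => c ⊗ₜ[A] x = (0 : B ⊗[A] V)) hx ?_ ?_
    · intro a ha w _
      have h0 : algebraMap A B a = 0 := hI a ha
      rw [TensorProduct.tmul_smul, TensorProduct.smul_tmul', Algebra.smul_def, h0, zero_mul,
        TensorProduct.zero_tmul]
    · intro x y hx hy
      rw [TensorProduct.tmul_add, hx, hy, add_zero]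
  refine LinearMap.ext fun w => ?_
  induction w using TensorProduct.induction_on with
  | zero => rw [map_zero, map_zero]
  | tmul c v =>
    rw [LinearMap.baseChange_tmul, Module.End.one_apply, ← sub_eq_zero, ← TensorProduct.tmul_sub]
    exact hkill _ (h v) c
  | add x y hx hy => rw [map_add, map_add, hx, hy]

/-- A diagonal endomorphism with diagonal entries `≡ 1 mod I` is congruent to the identity. -/
theorem sub_mem_smul_top_of_diag_h59 (b : Module.Basis (Fin 2) A V) (g : V →ₗ[A] V)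
    (I : Ideal A) (x : Fin 2 → A) (hg : ∀ i, g (b i) = x i • b i) (hx : ∀ i, x i - 1 ∈ I)
    (v : V) : g v - v ∈ I • (⊤ : Submodule A V) := by
  have hv : g v - v = ∑ i, (b.repr v i) • ((x i - 1) • b i) := by
    conv_lhs => rw [← b.sum_repr v]
    rw [map_sum, ← Finset.sum_sub_distrib]
    refine Finset.sum_congr rfl fun i _ => ?_
    rw [map_smul, hg, sub_smul, one_smul, smul_sub]
  rw [hv]
  refine Submodule.sum_mem _ fun i _ => Submodule.smul_mem _ _ ?_
  exact Submodule.smul_mem_smul (hx i) Submodule.mem_top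

/-- If the base change of `g` is the identity and `g (b i) = x • b i` then `φ x = 1`. -/
theorem map_eq_one_of_baseChange_eq_one_h59 (φ : A →+* B) (b : Module.Basis (Fin 2) A V)
    (g : V →ₗ[A] V) (i : Fin 2) (x : A) (hg : g (b i) = x • b i)
    (h : letI : Algebra A B := φ.toAlgebra
      g.baseChange B = 1) : φ x = 1 := by
  letI : Algebra A B := φ.toAlgebra
  have h1 : g.baseChange B ((1 : B) ⊗ₜ[A] b i) = (1 : B) ⊗ₜ[A] b i := by
    rw [h, Module.End.one_apply]
  rw [LinearMap.baseChange_tmul, hg, TensorProduct.tmul_smul, TensorProduct.smul_tmul',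
    Algebra.smul_def, mul_one] at h1
  have h2 : (algebraMap A B x) ⊗ₜ[A] b i = (algebraMap A B x) • (b.baseChange B i) := by
    rw [Module.Basis.baseChange_apply, TensorProduct.smul_tmul', smul_eq_mul, mul_one]
  have h3 : (1 : B) ⊗ₜ[A] b i = b.baseChange B i := by
    rw [Module.Basis.baseChange_apply]
  rw [h2, h3] at h1
  have h4 := congrArg (fun w => (b.baseChange B).repr w i) h1
  simp only [map_smul, Module.Basis.repr_self, Finsupp.smul_apply, Finsupp.single_eq_same,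
    smul_eq_mul, mul_one] at h4
  exact h4

end tensor

section residual

variable {k k' : Type} [Field k] [Field k']

theorem residual_baseChangeAlong_rho_eq_one_h59 (ι : k →+* k') (ρbar : ResidualGaloisRep k)
    {σ : GQ} (h : ρbar.ρ σ = 1) : (ρbar.baseChangeAlong ι).ρ σ = 1 := by
  letI : Algebra k k' := ι.toAlgebra
  show (ρbar.ρ σ).baseChange k' = 1
  rw [h]
  exact LinearMap.baseChange_one k ρbar.V

theorem residual_baseChangeAlong_charpoly_h59 (ι : k →+* k') (ρbar : ResidualGaloisRep k)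
    (σ : GQ) : LinearMap.charpoly ((ρbar.baseChangeAlong ι).ρ σ) =
      (LinearMap.charpoly (ρbar.ρ σ)).map ι := by
  letI : Algebra k k' := ι.toAlgebra
  show LinearMap.charpoly ((ρbar.ρ σ).baseChange k') = _
  rw [LinearMap.charpoly_baseChange]
  rfl

theorem residual_equiv_rho_eq_one_h59 {ρ₁ ρ₂ : ResidualGaloisRep k}
    (e : ResidualGaloisRep.Equiv ρ₁ ρ₂) {σ : GQ} (h : ρ₂.ρ σ = 1) : ρ₁.ρ σ = 1 := by
  refine LinearMap.ext fun x => e.toLinearEquiv.injective ?_
  rw [e.map_apply, h]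
  rfl

theorem residual_equiv_charpoly_h59 {ρ₁ ρ₂ : ResidualGaloisRep k}
    (e : ResidualGaloisRep.Equiv ρ₁ ρ₂) (σ : GQ) :
    LinearMap.charpoly (ρ₁.ρ σ) = LinearMap.charpoly (ρ₂.ρ σ) := by
  have h1 : ρ₂.ρ σ = e.toLinearEquiv.conj (ρ₁.ρ σ) := by
    refine LinearMap.ext fun y => ?_
    rw [LinearEquiv.conj_apply_apply, e.map_apply, LinearEquiv.apply_symm_apply]
  rw [h1, LinearEquiv.charpoly_conj]

end residual

/-- **TW-GAL2.** -/
theorem twGal2 : TWGal2Statement := by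
  intro p _ 𝒪 _ _ _ _ hp𝒪 ρbar 𝒟Q 𝒟min hDC hdet r qv hq hmin hunr P hP φ hφ α β hαβ hchar
    DQ Dmin
  have hp : p.Prime := Fact.out
  set ι : ResidueField 𝒪 →+* ResidueField DQ.R := ResidueField.map (algebraMap 𝒪 DQ.R) with hι
  have hpR : (p : DQ.R) ∈ maximalIdeal DQ.R := by
    have := Fermat.Agent.S56.H966.map_mem_maximalIdeal (algebraMap 𝒪 DQ.R) inferInstance hp𝒪
    rwa [map_natCast] at this
  have hdetQ : DQ.ρ.DetIsCyclotomic p := hdet DQ.ρ DQ.isOfType
  obtain ⟨eres⟩ := DQ.residual_isEquiv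
  have hunrQ : ∀ j, DQ.ρ.residual.IsUnramifiedAt (qv j) := by
    intro j P' hP' σ hσ
    exact residual_equiv_rho_eq_one_h59 eres
      (residual_baseChangeAlong_rho_eq_one_h59 ι ρbar (hunr j P' hP' σ hσ))
  have hcharQ : ∀ j, LinearMap.charpoly (DQ.ρ.residual.ρ (φ j)) =
      (X - C (ι (α j))) * (X - C (ι (β j))) := by
    intro j
    rw [residual_equiv_charpoly_h59 eres, residual_baseChangeAlong_charpoly_h59, hchar j,
      Polynomial.map_mul, Polynomial.map_sub, Polynomial.map_sub, Polynomial.map_X,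
      Polynomial.map_C, Polynomial.map_C]
  -- the local structure at the `qv j`
  have hloc := fun j => twGal1 p (qv j) (hq j).1 (hq j).2 DQ.R hpR DQ.ρ hdetQ (hunrQ j) (P j)
    (hP j) (φ j) (hφ j) (ι (α j)) (ι (β j)) (fun h => hαβ j (ι.injective h)) (hcharQ j)
  choose b ξ hTW using hloc
  choose τ hτ hgen using fun j => (hTW j).inertia_cyclic
  set δ : Fin r → DQ.R := fun j => ξ j 0 (τ j) with hδ
  set I : Ideal DQ.R := Ideal.span (Set.range fun j => δ j - 1) with hIdef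
  have hδI : ∀ j, δ j - 1 ∈ I := fun j => Ideal.subset_span ⟨j, rfl⟩
  have hIle : I ≤ maximalIdeal DQ.R := by
    rw [hIdef, Ideal.span_le]
    rintro _ ⟨j, rfl⟩
    exact (hTW j).inertia_res (τ j) (hτ j) 0
  have hItop : I ≠ ⊤ := fun h => (maximalIdeal.isMaximal DQ.R).ne_top (top_le_iff.mp (h ▸ hIle))
  -- all inertia characters are trivial modulo `I`
  have hξI : ∀ j, ∀ σ ∈ (P j).inertiaSubgroupIn ℚ, ∀ i, ξ j i σ - 1 ∈ I := by
    intro j σ hσ
    obtain ⟨k, hk⟩ := hgen j σ hσ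
    have h0 : Ideal.Quotient.mk I (ξ j 0 (τ j)) = 1 := by
      rw [← sub_eq_zero, ← map_one (Ideal.Quotient.mk I), ← map_sub]
      exact Ideal.Quotient.eq_zero_iff_mem.mpr (hδI j)
    have h1 : Ideal.Quotient.mk I (ξ j 1 (τ j)) = 1 := by
      have := congrArg (Ideal.Quotient.mk I) ((hTW j).inertia_mul (τ j) (hτ j))
      rwa [map_mul, h0, one_mul, map_one] at this
    have hall : ∀ i : Fin 2, Ideal.Quotient.mk I (ξ j i (τ j)) = 1 := by
      rw [Fin.forall_fin_two]
      exact ⟨h0, h1⟩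
    intro i
    rw [← Ideal.Quotient.eq_zero_iff_mem, map_sub, map_one, hk i, map_pow, hall i, one_pow,
      sub_self]
  -- the quotient
  letI : IsLocalRing (DQ.R ⧸ I) := Fermat.Agent.S53.H596.isLocalRing_quotient I hItop
  haveI : IsAdicComplete (maximalIdeal (DQ.R ⧸ I)) (DQ.R ⧸ I) :=
    Fermat.Agent.S53.H596.isAdicComplete_quotient I hItop
  haveI : IsLocalHom (algebraMap 𝒪 (DQ.R ⧸ I)) :=
    Fermat.Agent.S53.H596.isLocalHom_algebraMap_quotient I hItop
  have hres' : Function.Surjective (IsLocalRing.residue (DQ.R ⧸ I) ∘ algebraMap 𝒪 (DQ.R ⧸ I)) :=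
    Fermat.Agent.S53.H596.residue_surjective_quotient DQ.residue_surjective I hItop
  set f : DQ.R →ₐ[𝒪] DQ.R ⧸ I := Ideal.Quotient.mkₐ 𝒪 I with hf
  have hfs : Function.Surjective f := Ideal.Quotient.mkₐ_surjective 𝒪 I
  have hfl : IsLocalHom (f : DQ.R →+* DQ.R ⧸ I) :=
    Fermat.Agent.S53.H596.isLocalHom_quotient_mk I hItop
  have hkerf : RingHom.ker (f : DQ.R →+* DQ.R ⧸ I) = I := Ideal.mk_ker
  have hQmin : ∀ ⦃A : Type⦄ [CommRing A] [IsLocalRing A] [Algebra 𝒪 A] (ρ : GaloisRepAdic A),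
      𝒟min ρ → 𝒟Q ρ := fun A _ _ _ ρ h => ((hmin ρ).mp h).1
  -- the push-forward is minimal
  have h1 : 𝒟min (DQ.ρ.baseChangeAlong (f : DQ.R →+* DQ.R ⧸ I) hfl) := by
    rw [hmin]
    refine ⟨D_baseChange_of_surjective_h59 hDC inferInstance DQ.residue_surjective inferInstance
      hres' f hfl hfs DQ.isOfType, fun j => ?_⟩
    intro P' hP'
    refine map_inertia_eq_one_of_liesOver _ (hq j).1 (hP j) hP' ?_
    intro σ hσ
    show (letI : Algebra DQ.R (DQ.R ⧸ I) := (f : DQ.R →+* DQ.R ⧸ I).toAlgebra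
      (DQ.ρ.ρ σ).baseChange (DQ.R ⧸ I)) = 1
    refine baseChange_eq_one_h59 (f : DQ.R →+* DQ.R ⧸ I) (DQ.ρ.ρ σ) I ?_ ?_
    · intro a ha
      exact Ideal.Quotient.eq_zero_iff_mem.mpr ha
    · exact sub_mem_smul_top_of_diag_h59 (b j) (DQ.ρ.ρ σ) I (fun i => ξ j i σ)
        (fun i => (hTW j).diag σ (inertia_le_decomposition_h59 hσ) i) (hξI j σ hσ)
  -- every classifying map kills `I`
  have h2 : ∀ (π₁ : DQ.R →ₐ[𝒪] Dmin.R) (hπ : IsLocalHom (π₁ : DQ.R →+* Dmin.R)),
      (DQ.ρ.baseChangeAlong (π₁ : DQ.R →+* Dmin.R) hπ).IsEquiv Dmin.ρ →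
      RingHom.ker (f : DQ.R →+* DQ.R ⧸ I) ≤ RingHom.ker (π₁ : DQ.R →+* Dmin.R) := by
    intro π₁ hπ e
    rw [hkerf, hIdef, Ideal.span_le]
    rintro _ ⟨j, rfl⟩
    have hun : (DQ.ρ.baseChangeAlong (π₁ : DQ.R →+* Dmin.R) hπ).IsUnramifiedAt (qv j) :=
      Fermat.Agent.S56.H966.isUnramifiedAt_of_isEquiv (isEquiv_symm e)
        (((hmin Dmin.ρ).mp Dmin.isOfType).2 j)
    have h3 := hun (P j) (hP j) (τ j) (hτ j)
    have h4 : (π₁ : DQ.R →+* Dmin.R) (δ j) = 1 :=
      map_eq_one_of_baseChange_eq_one_h59 (π₁ : DQ.R →+* Dmin.R) (b j) (DQ.ρ.ρ (τ j)) 0 (δ j)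
        ((hTW j).diag (τ j) (inertia_le_decomposition_h59 (hτ j)) 0) h3
    show (π₁ : DQ.R →+* Dmin.R) (δ j - 1) = 0
    rw [map_sub, h4, map_one, sub_self]
  obtain ⟨π, hπs, hπker, hπl, eπ⟩ :=
    universal_quotient_h59 hQmin DQ Dmin hres' f hfs hfl h1 h2
  refine ⟨δ, π, hπs, by rw [hπker, hkerf], ⟨hπl, eπ⟩, fun j => ⟨?_, b j, ξ j, hTW j, τ j, hτ j,
    rfl, hgen j⟩⟩
  exact (hTW j).inertia_pow (τ j) (hτ j) 0

end Fermat.Agent.S59.H59
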