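import Mathlib

/-!
# Row S59, leaf TW-GAL1 (helper59): the algebra

Pure commutative / linear algebra over a local ring `A` (Mathlib only).

* `entIn_pow_prime_sub_one` : `T ≡ 1 mod 𝔪^k` entrywise (`k ≥ 1`, `p ∈ 𝔪`) ⟹ `T^p ≡ 1 mod 𝔪^(k+1)`;
  `entIn_pow_prime_pow_sub_one` : `T ≡ 1 mod 𝔪` ⟹ `T^(p^j) ≡ 1 mod 𝔪^(j+1)`.
* `pow_entries_h59` : the entries of `T^k` for `T ≡ 1 mod 𝔪` with off-diagonal entries in `J ≤ 𝔪`.
* `offdiag_eq_zero_h59` : the key computation `F T = T^q F` ⟹ `T` diagonal.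
* `exists_diagonalizer_h59` : diagonalisation of `F` with eigenvalues `a₀ ≢ a₁`.
* `exists_eigenvalues_h59` : Hensel.
* `pow_ppart_eq_one_h59` : `x ≡ 1 mod 𝔪`, `x^m = 1` ⟹ `x^(p-part of m) = 1`.
-/

set_option autoImplicit false

open Polynomial IsLocalRing

namespace Fermat.Agent.S59.H59

/-- all entries of `M` lie in the ideal `I` -/
def EntIn {A : Type*} [CommRing A] (I : Ideal A) (M : Matrix (Fin 2) (Fin 2) A) : Prop :=
  ∀ i j, M i j ∈ I

section entIn

variable {A : Type*} [CommRing A]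

theorem EntIn.mono {I J : Ideal A} (h : I ≤ J) {M : Matrix (Fin 2) (Fin 2) A} (hM : EntIn I M) :
    EntIn J M := fun i j => h (hM i j)

theorem EntIn.add {I : Ideal A} {M N : Matrix (Fin 2) (Fin 2) A} (hM : EntIn I M)
    (hN : EntIn I N) : EntIn I (M + N) := fun i j => by
  rw [Matrix.add_apply]; exact I.add_mem (hM i j) (hN i j)

theorem EntIn.zero (I : Ideal A) : EntIn I (0 : Matrix (Fin 2) (Fin 2) A) := fun i j => by
  rw [Matrix.zero_apply]; exact I.zero_mem

theorem EntIn.mul {I J : Ideal A} {M N : Matrix (Fin 2) (Fin 2) A} (hM : EntIn I M)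
    (hN : EntIn J N) : EntIn (I * J) (M * N) := fun i j => by
  rw [Matrix.mul_apply]
  exact Ideal.sum_mem _ fun l _ => Ideal.mul_mem_mul (hM i l) (hN l j)

theorem EntIn.mul_left {I : Ideal A} (M : Matrix (Fin 2) (Fin 2) A)
    {N : Matrix (Fin 2) (Fin 2) A} (hN : EntIn I N) : EntIn I (M * N) := fun i j => by
  rw [Matrix.mul_apply]
  exact Ideal.sum_mem _ fun l _ => I.mul_mem_left _ (hN l j)

theorem EntIn.mul_right {I : Ideal A} {M : Matrix (Fin 2) (Fin 2) A} (hM : EntIn I M)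
    (N : Matrix (Fin 2) (Fin 2) A) : EntIn I (M * N) := fun i j => by
  rw [Matrix.mul_apply]
  exact Ideal.sum_mem _ fun l _ => I.mul_mem_right _ (hM i l)

theorem EntIn.nsmul {I : Ideal A} {M : Matrix (Fin 2) (Fin 2) A} (hM : EntIn I M) (n : ℕ) :
    EntIn I (n • M) := fun i j => by
  rw [Matrix.smul_apply]; exact I.nsmul_mem (hM i j) n

theorem EntIn.natCast_smul {I J : Ideal A} {M : Matrix (Fin 2) (Fin 2) A} (hM : EntIn I M)
    {n : ℕ} (hn : (n : A) ∈ J) : EntIn (J * I) (n • M) := fun i j => by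
  rw [Matrix.smul_apply, nsmul_eq_mul]; exact Ideal.mul_mem_mul hn (hM i j)

/-- `(1 + Y)^m ≡ 1 + m Y` modulo `I²` when `Y` has entries in `I`. -/
theorem entIn_one_add_pow {I : Ideal A} {Y : Matrix (Fin 2) (Fin 2) A} (hY : EntIn I Y) (m : ℕ) :
    EntIn (I * I) ((1 + Y) ^ m - 1 - m • Y) := by
  induction m with
  | zero =>
    have : (1 + Y) ^ 0 - 1 - 0 • Y = 0 := by simp
    rw [this]; exact EntIn.zero _
  | succ m ih =>
    have h : (1 + Y) ^ (m + 1) - 1 - (m + 1) • Y =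
        ((1 + Y) ^ m - 1 - m • Y) + ((1 + Y) ^ m - 1 - m • Y) * Y + m • (Y * Y) := by
      rw [pow_succ]
      simp only [mul_add, mul_one, sub_mul, one_mul, add_smul, one_smul, smul_mul_assoc]
      abel
    rw [h]
    refine (ih.add (ih.mul_right Y)).add ?_
    exact (hY.mul hY).nsmul m

/-- `T ≡ 1 mod 𝔪^k` (`k ≥ 1`) and `p ∈ 𝔪` imply `T^p ≡ 1 mod 𝔪^(k+1)`. -/
theorem entIn_pow_prime_sub_one {𝔪 : Ideal A} {p : ℕ} (hp : (p : A) ∈ 𝔪) {k : ℕ} (hk : 1 ≤ k)
    {T : Matrix (Fin 2) (Fin 2) A} (hT : EntIn (𝔪 ^ k) (T - 1)) :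
    EntIn (𝔪 ^ (k + 1)) (T ^ p - 1) := by
  have h1 := entIn_one_add_pow hT p
  rw [add_sub_cancel] at h1
  have h2 : T ^ p - 1 = (T ^ p - 1 - p • (T - 1)) + p • (T - 1) := by abel
  rw [h2]
  refine EntIn.add (h1.mono ?_) ((hT.natCast_smul hp).mono ?_)
  · rw [← pow_add]
    exact Ideal.pow_le_pow_right (by omega)
  · rw [pow_succ']

/-- `T ≡ 1 mod 𝔪` and `p ∈ 𝔪` imply `T^(p^j) ≡ 1 mod 𝔪^(j+1)`. -/
theorem entIn_pow_prime_pow_sub_one {𝔪 : Ideal A} {p : ℕ} (hp : (p : A) ∈ 𝔪)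
    {T : Matrix (Fin 2) (Fin 2) A} (hT : EntIn 𝔪 (T - 1)) (j : ℕ) :
    EntIn (𝔪 ^ (j + 1)) (T ^ p ^ j - 1) := by
  induction j with
  | zero => simpa using hT
  | succ j ih =>
    have e : T ^ p ^ (j + 1) = (T ^ p ^ j) ^ p := by rw [pow_succ, pow_mul]
    rw [e]
    exact entIn_pow_prime_sub_one hp (by omega) ih

/-- The entries of the powers of a matrix `T ≡ 1 mod 𝔪` with off-diagonal entries in `J ≤ 𝔪`. -/
theorem pow_entries_h59 {𝔪 J : Ideal A} (hJ : J ≤ 𝔪) {T : Matrix (Fin 2) (Fin 2) A}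
    (h00 : T 0 0 - 1 ∈ 𝔪) (h11 : T 1 1 - 1 ∈ 𝔪) (h01 : T 0 1 ∈ J) (h10 : T 1 0 ∈ J) (k : ℕ) :
    (T ^ k) 0 0 - 1 ∈ 𝔪 ∧ (T ^ k) 1 1 - 1 ∈ 𝔪 ∧ (T ^ k) 0 1 - k * T 0 1 ∈ 𝔪 * J ∧
      (T ^ k) 1 0 - k * T 1 0 ∈ 𝔪 * J := by
  induction k with
  | zero =>
    refine ⟨?_, ?_, ?_, ?_⟩ <;> simp
  | succ k ih =>
    obtain ⟨i00, i11, i01, i10⟩ := ih
    have hJ' : 𝔪 * J ≤ J := Ideal.mul_le_right
    have k01 : (T ^ k) 0 1 ∈ J := by
      have := J.add_mem (hJ' i01) (J.mul_mem_left (k : A) h01)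
      rwa [sub_add_cancel] at this
    have k10 : (T ^ k) 1 0 ∈ J := by
      have := J.add_mem (hJ' i10) (J.mul_mem_left (k : A) h10)
      rwa [sub_add_cancel] at this
    rw [pow_succ]
    simp only [Matrix.mul_apply, Fin.sum_univ_two]
    refine ⟨?_, ?_, ?_, ?_⟩
    · have e : (T ^ k) 0 0 * T 0 0 + (T ^ k) 0 1 * T 1 0 - 1 =
          ((T ^ k) 0 0 - 1) * T 0 0 + (T 0 0 - 1) + (T ^ k) 0 1 * T 1 0 := by ring
      rw [e]
      exact 𝔪.add_mem (𝔪.add_mem (𝔪.mul_mem_right _ i00) h00) (𝔪.mul_mem_left _ (hJ h10))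
    · have e : (T ^ k) 1 0 * T 0 1 + (T ^ k) 1 1 * T 1 1 - 1 =
          (T ^ k) 1 0 * T 0 1 + (((T ^ k) 1 1 - 1) * T 1 1 + (T 1 1 - 1)) := by ring
      rw [e]
      exact 𝔪.add_mem (𝔪.mul_mem_left _ (hJ h01)) (𝔪.add_mem (𝔪.mul_mem_right _ i11) h11)
    · have e : (T ^ k) 0 0 * T 0 1 + (T ^ k) 0 1 * T 1 1 - ((k + 1 : ℕ) : A) * T 0 1 =
          ((T ^ k) 0 0 - 1) * T 0 1 + ((T ^ k) 0 1 - k * T 0 1) * T 1 1 +
            (T 1 1 - 1) * (k * T 0 1) := by
        push_cast; ring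
      rw [e]
      refine Ideal.add_mem _ (Ideal.add_mem _ (Ideal.mul_mem_mul i00 h01)
        (Ideal.mul_mem_right _ _ i01)) (Ideal.mul_mem_mul h11 (J.mul_mem_left _ h01))
    · have e : (T ^ k) 1 0 * T 0 0 + (T ^ k) 1 1 * T 1 0 - ((k + 1 : ℕ) : A) * T 1 0 =
          ((T ^ k) 1 0 - k * T 1 0) * T 0 0 + ((T ^ k) 1 1 - 1) * T 1 0 +
            (T 0 0 - 1) * (k * T 1 0) := by
        push_cast; ring
      rw [e]
      refine Ideal.add_mem _ (Ideal.add_mem _ (Ideal.mul_mem_right _ _ i10)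
        (Ideal.mul_mem_mul i11 h10)) (Ideal.mul_mem_mul h00 (J.mul_mem_left _ h10))

end entIn

section key

variable {A : Type*} [CommRing A] [IsLocalRing A]

/-- **The key computation.**  If `F = diag(a₀, a₁)`, `T ≡ 1 mod 𝔪`, `F T = T^q F` and
`a₀ - q a₁`, `a₁ - q a₀` are units, then `T` is diagonal. -/
theorem offdiag_eq_zero_h59 [IsNoetherianRing A] {T : Matrix (Fin 2) (Fin 2) A} {a₀ a₁ : A}
    {q : ℕ} (hT : EntIn (maximalIdeal A) (T - 1))
    (h01 : a₀ * T 0 1 = (T ^ q) 0 1 * a₁) (h10 : a₁ * T 1 0 = (T ^ q) 1 0 * a₀)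
    (hu0 : IsUnit (a₀ - q * a₁)) (hu1 : IsUnit (a₁ - q * a₀)) : T 0 1 = 0 ∧ T 1 0 = 0 := by
  have h00 : T 0 0 - 1 ∈ maximalIdeal A := by simpa using hT 0 0
  have h11 : T 1 1 - 1 ∈ maximalIdeal A := by simpa using hT 1 1
  have key : ∀ n : ℕ, T 0 1 ∈ maximalIdeal A ^ (n + 1) ∧ T 1 0 ∈ maximalIdeal A ^ (n + 1) := by
    intro n
    induction n with
    | zero =>
      constructor
      · simpa using hT 0 1
      · simpa using hT 1 0
    | succ n ih =>
      obtain ⟨i01, i10⟩ := ih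
      have hJ : maximalIdeal A ^ (n + 1) ≤ maximalIdeal A := Ideal.pow_le_self (by omega)
      obtain ⟨-, -, p01, p10⟩ := pow_entries_h59 hJ h00 h11 i01 i10 q
      rw [pow_succ' (maximalIdeal A) (n + 1)]
      constructor
      · have e : (a₀ - q * a₁) * T 0 1 = ((T ^ q) 0 1 - q * T 0 1) * a₁ := by
          rw [sub_mul, h01]; ring
        have h := Ideal.mul_mem_right a₁ _ p01
        rw [← e] at h
        obtain ⟨u, hu⟩ := hu0
        have := Ideal.mul_mem_left _ (↑u⁻¹ : A) h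
        rwa [← hu, ← mul_assoc, Units.inv_mul, one_mul] at this
      · have e : (a₁ - q * a₀) * T 1 0 = ((T ^ q) 1 0 - q * T 1 0) * a₀ := by
          rw [sub_mul, h10]; ring
        have h := Ideal.mul_mem_right a₀ _ p10
        rw [← e] at h
        obtain ⟨u, hu⟩ := hu1
        have := Ideal.mul_mem_left _ (↑u⁻¹ : A) h
        rwa [← hu, ← mul_assoc, Units.inv_mul, one_mul] at this
  have hbot : (⨅ n : ℕ, maximalIdeal A ^ n) = ⊥ :=
    Ideal.iInf_pow_eq_bot_of_isLocalRing (maximalIdeal A) Ideal.IsPrime.ne_top'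
  have hmem : ∀ x : A, (∀ n : ℕ, x ∈ maximalIdeal A ^ (n + 1)) → x = 0 := by
    intro x hx
    have : x ∈ ⨅ n : ℕ, maximalIdeal A ^ n := by
      rw [Ideal.mem_iInf]
      intro n
      exact Ideal.pow_le_pow_right (Nat.le_succ n) (hx n)
    rwa [hbot, Ideal.mem_bot] at this
  exact ⟨hmem _ fun n => (key n).1, hmem _ fun n => (key n).2⟩

/-- **Diagonalisation.**  A `2 × 2` matrix whose characteristic polynomial is
`(X - a₀)(X - a₁)` with `a₀ - a₁` a unit is diagonalisable over a local ring. -/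
theorem exists_diagonalizer_h59 (F : Matrix (Fin 2) (Fin 2) A) {a₀ a₁ : A}
    (htr : a₀ + a₁ = F.trace) (hdet : a₀ * a₁ = F.det) (hu : IsUnit (a₀ - a₁)) :
    ∃ P : (Matrix (Fin 2) (Fin 2) A)ˣ,
      F * (P : Matrix (Fin 2) (Fin 2) A) = (P : Matrix (Fin 2) (Fin 2) A) * !![a₀, 0; 0, a₁] := by
  rw [Matrix.trace_fin_two] at htr
  rw [Matrix.det_fin_two] at hdet
  have hsum : (F 0 0 - a₁) + (F 1 1 - a₁) = a₀ - a₁ := by linear_combination -htr
  rw [← hsum] at hu
  have hu' : IsUnit (a₀ - a₁) := by rw [← hsum]; exact hu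
  rcases IsLocalRing.isUnit_or_isUnit_of_isUnit_add hu with h | h
  · -- first column of `F - a₁`, second column of `F - a₀`
    set P : Matrix (Fin 2) (Fin 2) A := !![F 0 0 - a₁, F 0 1; F 1 0, F 1 1 - a₀] with hP
    have hdetP : P.det = -((F 0 0 - a₁) * (a₀ - a₁)) := by
      rw [hP, Matrix.det_fin_two_of]
      linear_combination (-1 : A) * hdet + a₁ * htr
    have hPu : IsUnit P := by
      rw [Matrix.isUnit_iff_isUnit_det, hdetP]
      exact (h.mul hu').neg
    obtain ⟨Pu, hPu'⟩ := hPu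
    refine ⟨Pu, ?_⟩
    rw [hPu', hP]
    ext i j
    fin_cases i <;> fin_cases j
    · simp [Matrix.mul_apply, Fin.sum_univ_two]
      linear_combination hdet - F 0 0 * htr
    · simp [Matrix.mul_apply, Fin.sum_univ_two]
      linear_combination (-(F 0 1)) * htr
    · simp [Matrix.mul_apply, Fin.sum_univ_two]
      linear_combination (-(F 1 0)) * htr
    · simp [Matrix.mul_apply, Fin.sum_univ_two]
      linear_combination hdet - F 1 1 * htr
  · -- second column of `F - a₁`, first column of `F - a₀`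
    set P : Matrix (Fin 2) (Fin 2) A := !![F 0 1, F 0 0 - a₀; F 1 1 - a₁, F 1 0] with hP
    have hdetP : P.det = (F 1 1 - a₁) * (a₀ - a₁) := by
      rw [hP, Matrix.det_fin_two_of]
      linear_combination hdet - a₁ * htr
    have hPu : IsUnit P := by
      rw [Matrix.isUnit_iff_isUnit_det, hdetP]
      exact h.mul hu'
    obtain ⟨Pu, hPu'⟩ := hPu
    refine ⟨Pu, ?_⟩
    rw [hPu', hP]
    ext i j
    fin_cases i <;> fin_cases j
    · simp [Matrix.mul_apply, Fin.sum_univ_two]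
      linear_combination (-(F 0 1)) * htr
    · simp [Matrix.mul_apply, Fin.sum_univ_two]
      linear_combination hdet - F 0 0 * htr
    · simp [Matrix.mul_apply, Fin.sum_univ_two]
      linear_combination hdet - F 1 1 * htr
    · simp [Matrix.mul_apply, Fin.sum_univ_two]
      linear_combination (-(F 1 0)) * htr

end key


section hensel

variable {A : Type*} [CommRing A] [IsLocalRing A]

/-- **Hensel.**  Eigenvalues of a `2 × 2` matrix whose residual characteristic polynomial has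
distinct roots `α ≠ β`. -/
theorem exists_eigenvalues_h59 [HenselianRing A (maximalIdeal A)]
    (F : Matrix (Fin 2) (Fin 2) A) {α β : ResidueField A} (hαβ : α ≠ β)
    (hchar : (F.map (residue A)).charpoly = (X - C α) * (X - C β)) :
    ∃ a₀ a₁ : A, residue A a₀ = α ∧ residue A a₁ = β ∧ a₀ + a₁ = F.trace ∧ a₀ * a₁ = F.det := by
  rw [Matrix.charpoly_fin_two] at hchar
  have htrm : (F.map (residue A)).trace = residue A F.trace := by
    rw [Matrix.trace_fin_two, Matrix.trace_fin_two, map_add]; rfl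
  have hdetm : (F.map (residue A)).det = residue A F.det := by
    rw [Matrix.det_fin_two, Matrix.det_fin_two, map_sub, map_mul, map_mul]; rfl
  rw [htrm, hdetm] at hchar
  have hdet : residue A F.det = α * β := by
    have := congrArg (Polynomial.eval 0) hchar
    simpa using this
  have htr : residue A F.trace = α + β := by
    have := congrArg (Polynomial.eval 1) hchar
    simp only [eval_add, eval_sub, eval_pow, eval_X, eval_mul, eval_C, one_pow, mul_one] at this
    rw [hdet] at this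
    linear_combination (-1 : ResidueField A) * this
  obtain ⟨a', ha'⟩ := residue_surjective (R := A) α
  set f : A[X] := X ^ 2 - C F.trace * X + C F.det with hf
  have hfm : f.Monic := by
    rw [hf]
    have h1 : (X ^ 2 - C F.trace * X + C F.det : A[X]) = X ^ 2 + (C (-F.trace) * X + C F.det) := by
      rw [map_neg]; ring
    rw [h1]
    refine (monic_X_pow 2).add_of_left ?_
    rw [degree_X_pow]
    refine lt_of_le_of_lt (degree_linear_le) ?_
    norm_num
  have hev : ∀ a : A, f.eval a = a ^ 2 - F.trace * a + F.det := by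
    intro a; rw [hf]; simp
  have hder : ∀ a : A, f.derivative.eval a = 2 * a - F.trace := by
    intro a; rw [hf]; simp; ring
  have h₁ : f.eval a' ∈ maximalIdeal A := by
    rw [hev, ← residue_eq_zero_iff, map_add, map_sub, map_pow, map_mul, ha', htr, hdet]
    ring
  have h₂ : IsUnit (Ideal.Quotient.mk (maximalIdeal A) (f.derivative.eval a')) := by
    have e : Ideal.Quotient.mk (maximalIdeal A) (f.derivative.eval a') = α - β := by
      show residue A _ = _
      rw [hder, map_sub, map_mul, ha', htr, map_ofNat]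
      ring
    rw [e]
    exact (sub_ne_zero.mpr hαβ).isUnit
  obtain ⟨a₀, hroot, hmem⟩ := HenselianRing.is_henselian f hfm a' h₁ h₂
  have hres : residue A a₀ = α := by
    rw [← ha', ← sub_eq_zero, ← map_sub]
    exact (residue_eq_zero_iff _).mpr hmem
  have hroot' : a₀ ^ 2 - F.trace * a₀ + F.det = 0 := by
    rw [← hev]; exact hroot
  refine ⟨a₀, F.trace - a₀, hres, ?_, by ring, ?_⟩
  · rw [map_sub, htr, hres]; ring
  · linear_combination (-1 : A) * hroot'

/-- `x ≡ 1 mod 𝔪` and `x ^ m = 1` imply `x ^ (p-part of m) = 1` when `p ∈ 𝔪`. -/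
theorem pow_ppart_eq_one_h59 {p : ℕ} (hp : p.Prime) (hpA : (p : A) ∈ maximalIdeal A) {x : A}
    (hx : x - 1 ∈ maximalIdeal A) {m : ℕ} (hm : m ≠ 0) (hxm : x ^ m = 1) :
    x ^ p ^ padicValNat p m = 1 := by
  have : Fact p.Prime := ⟨hp⟩
  obtain ⟨e, c, hc, hmc⟩ := Nat.exists_eq_pow_mul_and_not_dvd hm p hp.ne_one
  have hc0 : c ≠ 0 := by rintro rfl; exact hc (dvd_zero p)
  have hv : padicValNat p m = e := by
    rw [hmc, padicValNat.mul (pow_ne_zero e hp.ne_zero) hc0, padicValNat.prime_pow,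
      padicValNat.eq_zero_of_not_dvd hc, add_zero]
  rw [hv]
  set u : A := x ^ p ^ e with hu
  have huc : u ^ c = 1 := by rw [hu, ← pow_mul, ← hmc, hxm]
  have hx1 : residue A x = 1 := by
    rw [← sub_eq_zero, ← map_one (residue A), ← map_sub]
    exact (residue_eq_zero_iff _).mpr hx
  have hu1 : residue A u = 1 := by rw [hu, map_pow, hx1, one_pow]
  -- `c` is a unit of the residue field
  have hcu : residue A (c : A) ≠ 0 := by
    intro h0
    have hcop : Nat.Coprime p c := (Nat.Prime.coprime_iff_not_dvd hp).mpr hc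
    obtain ⟨a, b, hab⟩ := Nat.isCoprime_iff_coprime.mpr hcop
    have h1 : (a : A) * (p : A) + (b : A) * (c : A) = 1 := by
      have := congrArg (fun z : ℤ => (z : A)) hab
      simpa using this
    have h2 : residue A ((a : A) * (p : A) + (b : A) * (c : A)) = 0 := by
      rw [map_add, map_mul, map_mul, h0, (residue_eq_zero_iff _).mpr hpA, mul_zero, mul_zero,
        add_zero]
    rw [h1, map_one] at h2
    exact one_ne_zero h2
  have hsum : residue A (∑ i ∈ Finset.range c, u ^ i) = residue A (c : A) := by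
    rw [map_sum]
    simp only [map_pow, hu1, one_pow, Finset.sum_const, Finset.card_range, nsmul_eq_mul, mul_one,
      map_natCast]
  have hunit : IsUnit (∑ i ∈ Finset.range c, u ^ i) := by
    by_contra hnu
    have : (∑ i ∈ Finset.range c, u ^ i) ∈ maximalIdeal A := (mem_maximalIdeal _).mpr hnu
    rw [← residue_eq_zero_iff, hsum] at this
    exact hcu this
  have hgeo := geom_sum_mul u c
  rw [huc, sub_self] at hgeo
  have := hunit.mul_right_eq_zero.mp hgeo
  exact sub_eq_zero.mp this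

end hensel

end Fermat.Agent.S59.H59
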