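import Fermat.Agent.S59.H59.TWGal1
import Fermat.Agent.S55.G.Rec.H63AuxField

/-!
# Row S59, leaf TW-GAL (helper59): factorisation through the action on `μ_q`

`twGalCyc : TWGalCycStatement` : in the situation of `TWDiag`, an element of the inertia group
at `P | q` which fixes the `q`-th roots of unity acts trivially, i.e. the characters `ξ i`
restricted to inertia factor through the mod `q` cyclotomic character (hence through the
`p`-Sylow quotient `Δ_q` of `(ℤ/q)^×`).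

Proof: at every finite level the image of inertia under `(r mod 𝔪ⁿ, cyc_q ^ c)`
(`q - 1 = p^v c`) is a cyclic `p`-group of exponent `p^v` (tame inertia, `S56.H794`), which
surjects onto the `p`-Sylow subgroup of `(ℤ/q)^×` (total ramification of `ℚ(ζ_q)` at `q`,
`S55.G.Rec.exists_inertia_cycloChar_eq63`); so the projection is injective.
-/

set_option autoImplicit false
set_option linter.unusedSectionVars false
set_option linter.style.haveILetI false
set_option linter.unusedSimpArgs false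

open IsLocalRing Polynomial ExtCitation
open scoped Pointwise

namespace Fermat.Agent.S59.H59

open Fermat.Agent.S53 Fermat.Agent.S56.H794 Fermat.Agent.Lib.Cheb.H476 Fermat.Agent.S55.G.Rec

section matrix

variable {A : Type} [CommRing A] [IsLocalRing A] [IsNoetherianRing A]
  {p q : ℕ} {P : ValuationSubring (AlgebraicClosure ℚ)}

attribute [local instance] isAlgebraic_Qbar_h794 isGalois_Qbar_h794

/-- The mod `q` cyclotomic character has finite level. -/
theorem cycloChar_finiteLevel_h59 (q : ℕ) [Fact q.Prime] : FiniteLevel (cycloChar q) := by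
  obtain ⟨ζ, hζ⟩ := exists_primitiveRoot63 q
  refine ⟨IntermediateField.adjoin ℚ {ζ}, finiteDimensional_adjoin_root63 ζ, fun τ hτ => ?_⟩
  have h1 : τ ∈ (IntermediateField.adjoin ℚ {ζ}).fixingSubgroup := by
    rw [IntermediateField.mem_fixingSubgroup_iff]
    exact hτ
  rw [← ker_cycloChar_eq63 q hζ] at h1
  exact MonoidHom.mem_ker.mp h1

theorem finiteLevel_prod_h59 {G₁ G₂ : Type*} [Group G₁] [Group G₂] {f₁ : GQ →* G₁}
    {f₂ : GQ →* G₂} (h₁ : FiniteLevel f₁) (h₂ : FiniteLevel f₂) :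
    FiniteLevel (f₁.prod f₂) := by
  obtain ⟨E₁, hE₁, h₁⟩ := h₁
  obtain ⟨E₂, hE₂, h₂⟩ := h₂
  haveI := hE₁
  haveI := hE₂
  refine ⟨E₁ ⊔ E₂, IntermediateField.finiteDimensional_sup E₁ E₂, fun τ hτ => ?_⟩
  rw [MonoidHom.prod_apply]
  refine Prod.ext ?_ ?_
  · exact h₁ τ fun x hx => hτ x ((le_sup_left : E₁ ≤ E₁ ⊔ E₂) hx)
  · exact h₂ τ fun x hx => hτ x ((le_sup_right : E₂ ≤ E₁ ⊔ E₂) hx)

/-- **Factorisation through `μ_q`, matrix form.** -/
theorem eq_one_of_cycloChar_eq_one_h59 [Fact q.Prime] {r : GQ →* M2 A} (hr : MatCont r)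
    (hp : p.Prime) (hqp : q ≠ p) (hP : P.LiesOverPrime q)
    (hpow : ∀ τ ∈ P.inertiaSubgroupIn ℚ, r τ ^ p ^ padicValNat p (q - 1) = 1)
    {σ : GQ} (hσ : σ ∈ P.inertiaSubgroupIn ℚ) (hσc : cycloChar q σ = 1) : r σ = 1 := by
  have hq : q.Prime := Fact.out
  set v := padicValNat p (q - 1) with hv
  obtain ⟨c, hc⟩ := (pow_padicValNat_dvd : p ^ padicValNat p (q - 1) ∣ q - 1)
  rw [← hv] at hc
  have hq1 : q - 1 ≠ 0 := by have := hq.two_le; omega
  have hc0 : c ≠ 0 := by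
    rintro rfl
    rw [mul_zero] at hc
    exact hq1 hc
  have hcard : Nat.card (ZMod q)ˣ = q - 1 := by
    rw [Nat.card_eq_fintype_card, ZMod.card_units]
  have hpowC : ∀ u : (ZMod q)ˣ, u ^ (q - 1) = 1 := by
    intro u
    rw [← hcard]
    exact pow_card_eq_one'
  refine mat_eq_of_forall_entIn_h59 fun n => ?_
  rw [← lvlH59_eq_one_iff]
  -- the product homomorphism
  let f₂ : GQ →* (ZMod q)ˣ := (powMonoidHom c).comp (cycloChar q)
  have hf₂ : ∀ τ, f₂ τ = cycloChar q τ ^ c := fun τ => rfl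
  have hf₂fl : FiniteLevel f₂ := by
    obtain ⟨E, hE, h⟩ := cycloChar_finiteLevel_h59 q
    exact ⟨E, hE, fun τ hτ => by rw [hf₂, h τ hτ, one_pow]⟩
  let f : GQ →* (M2 (A ⧸ maximalIdeal A ^ n))ˣ × (ZMod q)ˣ := (lvlH59 r n).prod f₂
  have hf : ∀ τ, f τ = (lvlH59 r n τ, cycloChar q τ ^ c) := fun τ => rfl
  have hffl : FiniteLevel f := finiteLevel_prod_h59 (lvlH59_finiteLevel hr n) hf₂fl
  have hpv : P.valuation ((p : ℕ) : AlgebraicClosure ℚ) = 1 :=
    valuation_prime_eq_one hq hP hp (Ne.symm hqp)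
  have hexpI : ∀ τ ∈ P.inertiaSubgroupIn ℚ, f τ ^ p ^ v = 1 := by
    intro τ hτ
    rw [hf, Prod.pow_mk]
    refine Prod.ext ?_ ?_
    · show lvlH59 r n τ ^ p ^ v = 1
      rw [← map_pow, lvlH59_eq_one_iff, map_pow, hpow τ hτ, sub_self]
      exact EntIn.zero _
    · show (cycloChar q τ ^ c) ^ p ^ v = 1
      rw [← pow_mul, mul_comm, ← hc]
      exact hpowC _
  have hptr : PrimeToResChar P f := fun τ hτ =>
    ⟨p ^ v, by rw [Nat.cast_pow, map_pow, hpv, one_pow], hexpI τ hτ⟩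
  set H : Subgroup ((M2 (A ⧸ maximalIdeal A ^ n))ˣ × (ZMod q)ˣ) :=
    (P.inertiaSubgroupIn ℚ).map f with hH
  have hcomm : ∀ x ∈ H, ∀ y ∈ H, x * y = y * x := by
    rintro _ ⟨σ₁, hσ₁, rfl⟩ _ ⟨σ₂, hσ₂, rfl⟩
    exact map_mul_comm_of_mem_inertiaIn hffl hptr hσ₁ hσ₂
  have hexp : ∀ x ∈ H, x ^ p ^ v = 1 := by
    rintro _ ⟨τ, hτ, rfl⟩
    exact hexpI τ hτ
  have huniq : ∀ x ∈ H, ∀ y ∈ H, x ^ p = 1 → y ^ p = 1 → y ≠ 1 → ∃ j : ℕ, x = y ^ j := by
    rintro _ ⟨σ₁, hσ₁, rfl⟩ _ ⟨σ₂, hσ₂, rfl⟩ h1 h2 hne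
    obtain ⟨j, -, hj⟩ := exists_pow_eq_of_pow_prime_lvl_h59 hffl hptr (rankOneOver_rat P hq hP)
      hp hpv hσ₁ hσ₂ h1 h2 hne
    exact ⟨j, hj⟩
  obtain ⟨y, ⟨τ₀, hτ₀, rfl⟩, hy⟩ := exists_generator_h59 H hcomm hexp huniq
  -- a generator of `(ℤ/q)^×` is hit by inertia
  obtain ⟨g, hg⟩ := IsCyclic.exists_generator (α := (ZMod q)ˣ)
  have hordg : orderOf g = q - 1 := by
    rw [orderOf_eq_card_of_forall_mem_zpowers hg, hcard]
  have hordu : orderOf (g ^ c) = p ^ v := by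
    rw [orderOf_pow_of_dvd hc0 (by rw [hordg, hc]; exact dvd_mul_left c _), hordg, hc,
      Nat.mul_div_cancel _ (Nat.pos_of_ne_zero hc0)]
  obtain ⟨g₁, hg₁⟩ := cycloChar_surjective63 q g
  obtain ⟨τ₁, hτ₁, hτ₁c⟩ := exists_inertia_cycloChar_eq63 q P hP g₁
  rw [hg₁] at hτ₁c
  obtain ⟨k, hk⟩ := hy (f τ₁) ⟨τ₁, hτ₁, rfl⟩
  have hk2 : g ^ c = (cycloChar q τ₀ ^ c) ^ k := by
    have := congrArg Prod.snd hk
    rw [hf, hf, Prod.pow_mk, hτ₁c] at this
    exact this
  have hordy : orderOf (cycloChar q τ₀ ^ c) = p ^ v := by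
    refine Nat.dvd_antisymm ?_ ?_
    · apply orderOf_dvd_of_pow_eq_one
      rw [← pow_mul, mul_comm, ← hc]
      exact hpowC _
    · rw [← hordu]
      apply orderOf_dvd_of_mem_zpowers
      rw [Subgroup.mem_zpowers_iff]
      exact ⟨k, by rw [zpow_natCast]; exact hk2.symm⟩
  -- the element `σ`
  obtain ⟨m, hm⟩ := hy (f σ) ⟨σ, hσ, rfl⟩
  have hm2 : (cycloChar q τ₀ ^ c) ^ m = 1 := by
    have := congrArg Prod.snd hm
    rw [hf, hf, Prod.pow_mk, hσc, one_pow] at this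
    exact this.symm
  have hdvd : p ^ v ∣ m := by
    rw [← hordy]
    exact orderOf_dvd_of_pow_eq_one hm2
  obtain ⟨m', hm'⟩ := hdvd
  have hfσ : f σ = 1 := by
    rw [hm, hm', pow_mul, hexpI τ₀ hτ₀, one_pow]
  have := congrArg Prod.fst hfσ
  rw [hf] at this
  exact this

end matrix

section final

variable {A : Type} [CommRing A] [IsLocalRing A]

/-- the matrix representation of `ρ` in a basis -/
noncomputable def matOfBasis (ρ : GaloisRepAdic A) (b : Module.Basis (Fin 2) A ρ.V) :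
    GQ →* M2 A :=
  (LinearMap.toMatrixAlgEquiv b).toAlgHom.toRingHom.toMonoidHom.comp ρ.ρ

theorem matOfBasis_apply (ρ : GaloisRepAdic A) (b : Module.Basis (Fin 2) A ρ.V) (σ : GQ)
    (i j : Fin 2) : matOfBasis ρ b σ i j = b.repr (ρ.ρ σ (b j)) i := by
  show LinearMap.toMatrix b b (ρ.ρ σ) i j = _
  rw [LinearMap.toMatrix_apply]

theorem matOfBasis_matCont (ρ : GaloisRepAdic A) (b : Module.Basis (Fin 2) A ρ.V) :
    MatCont (matOfBasis ρ b) := by
  intro n
  obtain ⟨L, hL, h⟩ := ρ.isAdicContinuous n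
  refine ⟨L, hL, fun σ hσ i j => ?_⟩
  have h1 : (matOfBasis ρ b σ - 1) i j = b.repr (ρ.ρ σ (b j) - b j) i := by
    rw [Matrix.sub_apply, matOfBasis_apply, map_sub, Finsupp.sub_apply, Module.Basis.repr_self,
      Matrix.one_apply, Finsupp.single_apply]
    congr 1
    by_cases hij : i = j
    · subst hij; simp
    · rw [if_neg hij, if_neg (Ne.symm hij)]
  rw [h1]
  exact repr_mem_of_mem_smul_top b _ (h σ hσ (b j)) i

/-- **Cyclotomic factorisation.** -/
theorem twGalCyc : TWGalCycStatement := by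
  intro p q _ hq hqp A _ _ _ _ hpA ρ P hP α β hαβ b ξ h σ hσ hfix i
  have hp : p.Prime := Fact.out
  haveI : Fact q.Prime := ⟨hq⟩
  have hqne : q ≠ p := by
    rintro rfl
    have := Nat.le_of_dvd (by have := hq.two_le; omega) hqp
    have := hq.two_le
    omega
  set r := matOfBasis ρ b with hr
  have hent : ∀ τ ∈ P.decompositionSubgroup ℚ, ∀ i j, r τ i j = if i = j then ξ j τ else 0 := by
    intro τ hτ i j
    rw [hr, matOfBasis_apply, h.diag τ hτ j, map_smul, Finsupp.smul_apply,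
      Module.Basis.repr_self, Finsupp.single_apply, smul_eq_mul]
    by_cases hij : i = j
    · subst hij; simp
    · rw [if_neg hij, if_neg (Ne.symm hij), mul_zero]
  have hpow : ∀ τ ∈ P.inertiaSubgroupIn ℚ, r τ ^ p ^ padicValNat p (q - 1) = 1 := by
    intro τ hτ
    have hτD := inertia_le_decomposition_h59 hτ
    refine pow_eq_one_of_diag_h59 ?_ ?_ fun i => ?_
    · rw [hent τ hτD]; simp
    · rw [hent τ hτD]; simp
    · rw [hent τ hτD, if_pos rfl]
      exact h.inertia_pow τ hτ i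
  have hσc : ExtCitation.cycloChar q σ = 1 := by
    apply Fermat.Agent.S55.Bridge.cycloChar_eq_one_of_fixes
    intro t ht
    apply hfix
    have := (mem_rootsOfUnity q t).1 ht
    rw [← Units.val_pow_eq_pow_val, this, Units.val_one]
  have h1 : r σ = 1 :=
    eq_one_of_cycloChar_eq_one_h59 (matOfBasis_matCont ρ b) hp hqne hP hpow hσ hσc
  have h2 := hent σ (inertia_le_decomposition_h59 hσ) i i
  rw [if_pos rfl] at h2
  rw [← h2, h1, Matrix.one_apply_eq]

end final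

end Fermat.Agent.S59.H59
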