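import Fermat.Agent.S59.H59.TWGalAlg
import Fermat.Agent.S53.Dict
import Fermat.Agent.S56.H794.TameRat

/-!
# Row S59, leaf TW-GAL1 (helper59): finite levels and tame inertia

`r : G_ℚ → M₂(A)` a continuous matrix representation over a Noetherian local ring `A` with
`p ∈ 𝔪`, `P | q ≠ p` a place of `ℚ̄` such that `r` is residually trivial on the inertia group
`I_P`.  Using the tame structure theory of `Fermat.Agent.S56.H794` at the finite levels
`A ⧸ 𝔪ⁿ` and Krull's intersection theorem: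

* `rel_frob_h59` : `r (φ τ φ⁻¹) = r τ ^ q` for `τ ∈ I_P` and `φ` a Frobenius at `P`;
* `exists_pow_eq_of_pow_prime_h59` : if `r σ ^ p = 1`, `r τ ^ p = 1`, `r τ ≠ 1` (`σ τ ∈ I_P`) then
  `r σ = r τ ^ j` for some `j < p`.
-/

set_option autoImplicit false
set_option linter.unusedSectionVars false
set_option linter.style.haveILetI false

open IsLocalRing

namespace Fermat.Agent.S59.H59

open Fermat.Agent.S53 Fermat.Agent.S56.H794 Fermat.Agent.A2.H708

section krull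

variable {A : Type*} [CommRing A] [IsLocalRing A] [IsNoetherianRing A]

/-- Krull's intersection theorem, elementwise. -/
theorem eq_zero_of_forall_mem_pow_h59 {x : A} (hx : ∀ n : ℕ, x ∈ maximalIdeal A ^ n) : x = 0 := by
  have hbot : (⨅ n : ℕ, maximalIdeal A ^ n) = ⊥ :=
    Ideal.iInf_pow_eq_bot_of_isLocalRing (maximalIdeal A) Ideal.IsPrime.ne_top'
  have : x ∈ ⨅ n : ℕ, maximalIdeal A ^ n := by
    rw [Ideal.mem_iInf]; exact hx
  rwa [hbot, Ideal.mem_bot] at this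

/-- Krull's intersection theorem for matrices. -/
theorem mat_eq_of_forall_entIn_h59 {M N : Matrix (Fin 2) (Fin 2) A}
    (h : ∀ n : ℕ, EntIn (maximalIdeal A ^ n) (M - N)) : M = N := by
  ext i j
  rw [← sub_eq_zero]
  exact eq_zero_of_forall_mem_pow_h59 fun n => by simpa using h n i j

end krull

section level

variable {A : Type} [CommRing A] [IsLocalRing A]

/-- The reduction of `r` modulo `𝔪ⁿ`, as a homomorphism to a group. -/
noncomputable def lvlH59 (r : GQ →* M2 A) (n : ℕ) : GQ →* (M2 (A ⧸ maximalIdeal A ^ n))ˣ :=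
  (Units.map (Ideal.Quotient.mk (maximalIdeal A ^ n)).mapMatrix.toMonoidHom).comp r.toHomUnits

theorem lvlH59_val (r : GQ →* M2 A) (n : ℕ) (σ : GQ) :
    ((lvlH59 r n σ : (M2 (A ⧸ maximalIdeal A ^ n))ˣ) : M2 (A ⧸ maximalIdeal A ^ n)) =
      (r σ).map (Ideal.Quotient.mk (maximalIdeal A ^ n)) := rfl

theorem map_mk_eq_iff_h59 (I : Ideal A) (M N : M2 A) :
    M.map (Ideal.Quotient.mk I) = N.map (Ideal.Quotient.mk I) ↔ EntIn I (M - N) := by
  constructor
  · intro h i j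
    have := congrFun (congrFun h i) j
    rw [Matrix.map_apply, Matrix.map_apply] at this
    rw [Matrix.sub_apply]
    exact Ideal.Quotient.eq.mp this
  · intro h
    ext i j
    rw [Matrix.map_apply, Matrix.map_apply]
    have := h i j
    rw [Matrix.sub_apply] at this
    exact Ideal.Quotient.eq.mpr this

theorem lvlH59_eq_iff (r : GQ →* M2 A) (n : ℕ) (σ τ : GQ) :
    lvlH59 r n σ = lvlH59 r n τ ↔ EntIn (maximalIdeal A ^ n) (r σ - r τ) := by
  rw [Units.ext_iff, lvlH59_val, lvlH59_val, map_mk_eq_iff_h59]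

theorem lvlH59_eq_one_iff (r : GQ →* M2 A) (n : ℕ) (σ : GQ) :
    lvlH59 r n σ = 1 ↔ EntIn (maximalIdeal A ^ n) (r σ - 1) := by
  have := lvlH59_eq_iff r n σ 1
  rwa [map_one, map_one] at this

theorem lvlH59_finiteLevel {r : GQ →* M2 A} (hr : MatCont r) (n : ℕ) :
    FiniteLevel (lvlH59 r n) := by
  obtain ⟨L, hL, h⟩ := hr n
  exact ⟨L, hL, fun τ hτ => (lvlH59_eq_one_iff r n τ).mpr (h τ hτ)⟩

variable {p q : ℕ} {P : ValuationSubring (AlgebraicClosure ℚ)}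

theorem lvlH59_pow_eq_one {r : GQ →* M2 A} (hpA : (p : A) ∈ maximalIdeal A) {τ : GQ}
    (hτ : EntIn (maximalIdeal A) (r τ - 1)) (n : ℕ) : lvlH59 r n τ ^ p ^ n = 1 := by
  rw [← map_pow, lvlH59_eq_one_iff, map_pow]
  exact (entIn_pow_prime_pow_sub_one hpA hτ n).mono (Ideal.pow_le_pow_right (Nat.le_succ n))

theorem lvlH59_primeToResChar {r : GQ →* M2 A} (hp : p.Prime) (hpA : (p : A) ∈ maximalIdeal A)
    (hq : q.Prime) (hqp : q ≠ p) (hP : P.LiesOverPrime q)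
    (hres : ∀ τ ∈ P.inertiaSubgroupIn ℚ, EntIn (maximalIdeal A) (r τ - 1)) (n : ℕ) :
    PrimeToResChar P (lvlH59 r n) := by
  intro τ hτ
  refine ⟨p ^ n, ?_, lvlH59_pow_eq_one hpA (hres τ hτ) n⟩
  rw [Nat.cast_pow, map_pow, valuation_prime_eq_one hq hP hp (Ne.symm hqp), one_pow]

end level

section exact

variable {A : Type} [CommRing A] [IsLocalRing A] [IsNoetherianRing A]
  {p q : ℕ} {P : ValuationSubring (AlgebraicClosure ℚ)}

attribute [local instance] isAlgebraic_Qbar_h794 isGalois_Qbar_h794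

/-- **The tame relation**, exactly: `r (φ τ φ⁻¹) = r τ ^ q`. -/
theorem rel_frob_h59 {r : GQ →* M2 A} (hr : MatCont r) (hp : p.Prime)
    (hpA : (p : A) ∈ maximalIdeal A) (hq : q.Prime) (hqp : q ≠ p) (hP : P.LiesOverPrime q)
    (hres : ∀ τ ∈ P.inertiaSubgroupIn ℚ, EntIn (maximalIdeal A) (r τ - 1)) {φ τ : GQ}
    (hφ : P.IsFrobeniusAt φ q) (hτ : τ ∈ P.inertiaSubgroupIn ℚ) :
    r (φ * τ * φ⁻¹) = r τ ^ q := by
  rw [← map_pow]
  refine mat_eq_of_forall_entIn_h59 fun n => ?_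
  rw [← lvlH59_eq_iff, map_pow]
  exact map_conj_frobenius (lvlH59_finiteLevel hr n)
    (lvlH59_primeToResChar hp hpA hq hqp hP hres n) hφ hτ

/-- `r` is commutative on inertia. -/
theorem rel_comm_h59 {r : GQ →* M2 A} (hr : MatCont r) (hp : p.Prime)
    (hpA : (p : A) ∈ maximalIdeal A) (hq : q.Prime) (hqp : q ≠ p) (hP : P.LiesOverPrime q)
    (hres : ∀ τ ∈ P.inertiaSubgroupIn ℚ, EntIn (maximalIdeal A) (r τ - 1)) {σ τ : GQ}
    (hσ : σ ∈ P.inertiaSubgroupIn ℚ) (hτ : τ ∈ P.inertiaSubgroupIn ℚ) :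
    r σ * r τ = r τ * r σ := by
  rw [← map_mul, ← map_mul]
  refine mat_eq_of_forall_entIn_h59 fun n => ?_
  rw [← lvlH59_eq_iff, map_mul, map_mul]
  exact map_mul_comm_of_mem_inertiaIn (lvlH59_finiteLevel hr n)
    (lvlH59_primeToResChar hp hpA hq hqp hP hres n) hσ hτ

end exact

section cyclicLevel

variable {K L : Type*} [Field K] [Field L] [Algebra K L] [IsGalois K L]
  {B : ValuationSubring L}

/-- **Elements of prime order in the image of tame inertia** (variant of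
`Fermat.Agent.S56.H794.exists_pow_eq_of_exponent_prime` with the exponent hypothesis only on
the two elements). -/
theorem exists_pow_eq_of_pow_prime_lvl_h59 {G : Type*} [Group G] {f : (L ≃ₐ[K] L) →* G}
    (hf : FiniteLevel f) (hp : PrimeToResChar B f) (hR : RankOneOver K B) {ℓ : ℕ} (hℓ : ℓ.Prime)
    (hℓv : B.valuation (ℓ : L) = 1)
    {σ τ : L ≃ₐ[K] L} (hσ : σ ∈ B.inertiaSubgroupIn K) (hτ : τ ∈ B.inertiaSubgroupIn K)
    (hσℓ : f σ ^ ℓ = 1) (hτℓ : f τ ^ ℓ = 1)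
    (hne : f τ ≠ 1) : ∃ j : ℕ, j < ℓ ∧ f σ = f τ ^ j := by
  obtain ⟨c₀, hc₀E, hζ⟩ := exists_tameHom_ne_one B hf hτ hℓv hτℓ hne
  have hζℓ : tameHom B hτ c₀ ^ ℓ = 1 :=
    tameHom_pow_eq_one_of_map_pow_eq_one hτ hτℓ c₀ hc₀E
  have hξℓ : tameHom B hσ c₀ ^ ℓ = 1 :=
    tameHom_pow_eq_one_of_map_pow_eq_one hσ hσℓ c₀ hc₀E
  have hord : orderOf (tameHom B hτ c₀) = ℓ :=
    @orderOf_eq_prime _ _ _ ℓ (Fact.mk hℓ) hζℓ hζ
  have hprim : IsPrimitiveRoot (tameHom B hτ c₀) ℓ := hord ▸ IsPrimitiveRoot.orderOf _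
  have hprim' : IsPrimitiveRoot
      ((tameHom B hτ c₀ : (IsLocalRing.ResidueField B)ˣ) : IsLocalRing.ResidueField B) ℓ :=
    IsPrimitiveRoot.coe_units_iff.mpr hprim
  haveI : NeZero ℓ := ⟨hℓ.ne_zero⟩
  obtain ⟨j, hj, hjξ⟩ := hprim'.eq_pow_of_pow_eq_one
    (ξ := ((tameHom B hσ c₀ : (IsLocalRing.ResidueField B)ˣ) : IsLocalRing.ResidueField B))
    (by rw [← Units.val_pow_eq_pow_val, hξℓ, Units.val_one])
  have hjξ' : tameHom B hτ c₀ ^ j = tameHom B hσ c₀ :=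
    Units.ext (by rw [Units.val_pow_eq_pow_val]; exact hjξ)
  refine ⟨j, hj, ?_⟩
  have hc₀U : c₀ ∉ B.unitGroup := by
    intro h
    exact hζ (tameHom_eq_one_of_valuation_eq_one B hτ c₀
      ((ValuationSubring.mem_unitGroup_iff B c₀).mp h))
  have hγ : σ * (τ ^ j)⁻¹ ∈ B.inertiaSubgroupIn K := mul_mem hσ (inv_mem (pow_mem hτ j))
  have h1 : f (σ * (τ ^ j)⁻¹) = 1 := by
    apply map_eq_one_of_tameHom_eq_one hf hp hγ
    intro c hcE
    rw [tameHom_mul B hσ (inv_mem (pow_mem hτ j)), tameHom_inv B (pow_mem hτ j),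
      tameHom_pow B hτ]
    obtain ⟨a, b, hab, hmem⟩ := exists_coprime_zpow_div_mem_unitGroup (K := K) B hR c c₀ hc₀U
    have hv : B.valuation (((c ^ a / c₀ ^ b : Lˣ)) : L) = 1 :=
      (ValuationSubring.mem_unitGroup_iff B _).mp hmem
    have hxa : tameHom B hσ c ^ a = tameHom B hσ c₀ ^ b := by
      have := tameHom_eq_one_of_valuation_eq_one B hσ _ hv
      rwa [map_div, map_zpow, map_zpow, div_eq_one] at this
    have hya : tameHom B hτ c ^ a = tameHom B hτ c₀ ^ b := by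
      have := tameHom_eq_one_of_valuation_eq_one B hτ _ hv
      rwa [map_div, map_zpow, map_zpow, div_eq_one] at this
    have hxℓ : tameHom B hσ c ^ ℓ = 1 :=
      tameHom_pow_eq_one_of_map_pow_eq_one hσ hσℓ c hcE
    have hyℓ : tameHom B hτ c ^ ℓ = 1 :=
      tameHom_pow_eq_one_of_map_pow_eq_one hτ hτℓ c hcE
    set x := tameHom B hσ c with hx
    set y := tameHom B hτ c with hy
    set ζ := tameHom B hτ c₀ with hζdef
    set ξ := tameHom B hσ c₀ with hξdef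
    have hua : (x * (y ^ j)⁻¹) ^ a = 1 := by
      rw [mul_zpow, inv_zpow, ← zpow_natCast y j, ← zpow_mul, mul_comm (j : ℤ) a, zpow_mul,
        hxa, hya, ← hjξ', ← zpow_natCast ζ j, ← zpow_mul, ← zpow_mul, mul_comm (j : ℤ) b,
        mul_inv_cancel]
    have huℓ : (x * (y ^ j)⁻¹) ^ (ℓ : ℤ) = 1 := by
      rw [zpow_natCast, mul_pow, inv_pow, ← pow_mul, mul_comm j ℓ, pow_mul, hxℓ, hyℓ, one_pow,
        inv_one, mul_one]
    by_cases hdvd : (ℓ : ℤ) ∣ a
    · exfalso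
      obtain ⟨a', ha'⟩ := hdvd
      have hζb : ζ ^ b = 1 := by
        rw [← hya, ha', zpow_mul, zpow_natCast, hyℓ, one_zpow]
      have hcop : IsCoprime (ℓ : ℤ) b := by
        rw [ha'] at hab
        exact hab.of_mul_left_left
      have hζℓ' : ζ ^ (ℓ : ℤ) = 1 := by rw [zpow_natCast]; exact hζℓ
      exact hζ (eq_one_of_zpow_eq_one_of_isCoprime ζ hcop hζℓ' hζb)
    · have hcop : IsCoprime a (ℓ : ℤ) := by
        have hprime : Prime (ℓ : ℤ) := Nat.prime_iff_prime_int.mp hℓ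
        exact (hprime.coprime_iff_not_dvd.mpr hdvd).symm
      exact eq_one_of_zpow_eq_one_of_isCoprime _ hcop hua huℓ
  rw [map_mul, map_inv, map_pow, mul_inv_eq_one] at h1
  exact h1

end cyclicLevel

section cyclicExact

variable {A : Type} [CommRing A] [IsLocalRing A] [IsNoetherianRing A]
  {p q : ℕ} {P : ValuationSubring (AlgebraicClosure ℚ)}

attribute [local instance] isAlgebraic_Qbar_h794 isGalois_Qbar_h794

/-- **Elements of order `p` in the image of inertia**, exactly. -/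
theorem exists_pow_eq_of_pow_prime_h59 {r : GQ →* M2 A} (hr : MatCont r) (hp : p.Prime)
    (hpA : (p : A) ∈ maximalIdeal A) (hq : q.Prime) (hqp : q ≠ p) (hP : P.LiesOverPrime q)
    (hres : ∀ τ ∈ P.inertiaSubgroupIn ℚ, EntIn (maximalIdeal A) (r τ - 1)) {σ τ : GQ}
    (hσ : σ ∈ P.inertiaSubgroupIn ℚ) (hτ : τ ∈ P.inertiaSubgroupIn ℚ)
    (hσp : r σ ^ p = 1) (hτp : r τ ^ p = 1) (hne : r τ ≠ 1) :
    ∃ j : ℕ, j < p ∧ r σ = r τ ^ j := by
  -- a level where `τ` is visible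
  obtain ⟨n₁, hn₁⟩ : ∃ n₁ : ℕ, lvlH59 r n₁ τ ≠ 1 := by
    by_contra hcon
    push Not at hcon
    apply hne
    refine mat_eq_of_forall_entIn_h59 fun n => ?_
    exact (lvlH59_eq_one_iff r n τ).mp (hcon n)
  have hlvlp : ∀ (n : ℕ) (ρ : GQ), r ρ ^ p = 1 → lvlH59 r n ρ ^ p = 1 := by
    intro n ρ h
    rw [← map_pow, lvlH59_eq_one_iff, map_pow, h, sub_self]
    exact EntIn.zero _
  have hpv : P.valuation ((p : ℕ) : AlgebraicClosure ℚ) = 1 :=
    valuation_prime_eq_one hq hP hp (Ne.symm hqp)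
  have hlev : ∀ n : ℕ, lvlH59 r n τ ≠ 1 → ∃ j : ℕ, j < p ∧ lvlH59 r n σ = lvlH59 r n τ ^ j :=
    fun n hn => exists_pow_eq_of_pow_prime_lvl_h59 (lvlH59_finiteLevel hr n)
      (lvlH59_primeToResChar hp hpA hq hqp hP hres n) (rankOneOver_rat P hq hP) hp hpv hσ hτ
      (hlvlp n σ hσp) (hlvlp n τ hτp) hn
  obtain ⟨j, hj, hj₁⟩ := hlev n₁ hn₁
  refine ⟨j, hj, ?_⟩
  rw [← map_pow]
  refine mat_eq_of_forall_entIn_h59 fun n => ?_
  -- it suffices to treat the levels `n ≥ n₁`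
  suffices hbig : ∀ m : ℕ, n₁ ≤ m → EntIn (maximalIdeal A ^ m) (r σ - r (τ ^ j)) by
    exact (hbig (max n n₁) (le_max_right _ _)).mono (Ideal.pow_le_pow_right (le_max_left _ _))
  intro m hm
  have hmτ : lvlH59 r m τ ≠ 1 := by
    intro h
    apply hn₁
    rw [lvlH59_eq_one_iff] at h ⊢
    exact h.mono (Ideal.pow_le_pow_right hm)
  obtain ⟨j', hj', hjm⟩ := hlev m hmτ
  -- compare at level `n₁`
  have h1 : lvlH59 r n₁ σ = lvlH59 r n₁ τ ^ j' := by
    rw [← map_pow, lvlH59_eq_iff] at hjm ⊢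
    exact hjm.mono (Ideal.pow_le_pow_right hm)
  have hord : orderOf (lvlH59 r n₁ τ) = p :=
    @orderOf_eq_prime _ _ _ p (Fact.mk hp) (hlvlp n₁ τ hτp) hn₁
  have h2 : lvlH59 r n₁ τ ^ j = lvlH59 r n₁ τ ^ j' := by rw [← hj₁, h1]
  have h3 : j ≡ j' [MOD p] := by
    rw [← hord]
    exact pow_eq_pow_iff_modEq.mp h2
  have h4 : j = j' := Nat.ModEq.eq_of_lt_of_lt h3 hj hj'
  rw [← lvlH59_eq_iff, map_pow, h4]
  exact hjm

end cyclicExact

end Fermat.Agent.S59.H59
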