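import Fermat.Prelude.Def_GaloisRep_DeformationRingData
import Fermat.Prelude.Def_GaloisRep_DeformationCondition
import Fermat.Prelude.Def_GaloisRep_LocalConditions
import Fermat.Prelude.Def_EllipticCurve_FrobeniusTrace
import Fermat.Prelude.Def_FLTPrelim_Ramification

/-!
# Row S59, cell TW, leaves TW-GAL1 / TW-GAL2 (helper59): interface

Galois side of the Taylor–Wiles method at the auxiliary primes `q ≡ 1 mod p`
(`ρ̄` unramified at `q`, `ρ̄(Frob_q)` with distinct eigenvalues `α ≠ β`).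
Only Prelude + Mathlib vocabulary; no deformation condition is fixed (the statements are used
for `sigmaCond … Smin (Smin ∪ Q)` in row S59 and for the conditions of row RIBET).

* `TWDiag p q ρ P α β b ξ` : in the basis `b` the decomposition group at `P | q` acts diagonally
  through `ξ 0`, `ξ 1`; `ξ 0 (Frob) ≡ α`, `ξ 1 (Frob) ≡ β`; on inertia the `ξ i` are `≡ 1`, of
  order dividing the `p`-part of `q - 1`, and the image of inertia is cyclic.
* `TWGal1Statement` : (TW-GAL1) such `b`, `ξ` exist for every lift `ρ` over a complete Noetherian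
  local ring with `p` in the maximal ideal.
* `TWGal2Statement` : (TW-GAL2) `R_Q / (δ_1 - 1, …, δ_r - 1) ≅ R_min` where `δ_j` is the value of
  the `α_j`-character of the universal deformation on a generator of (the image of) inertia at
  `q_j`: a surjection `π : R_Q → R_min` of `𝒪`-algebras, compatible with the universal
  deformations, whose kernel is generated by the `δ_j - 1`, and `δ_j ^ (p-part of q_j - 1) = 1`.
* `TWGalCycStatement` : the characters `ξ i` restricted to inertia factor through the action on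
  the `q`-th roots of unity (needed to compare with the diamond operators, leaf TW-LGC).
-/

set_option autoImplicit false

open Polynomial IsLocalRing

namespace Fermat.Agent.S59.H59

/-- **Diagonal local structure at a Taylor–Wiles prime.** -/
structure TWDiag (p q : ℕ) {A : Type} [CommRing A] [IsLocalRing A] (ρ : GaloisRepAdic A)
    (P : ValuationSubring (AlgebraicClosure ℚ)) (α β : ResidueField A)
    (b : Module.Basis (Fin 2) A ρ.V)
    (ξ : Fin 2 → (AlgebraicClosure ℚ ≃ₐ[ℚ] AlgebraicClosure ℚ) → A) : Prop where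
  /-- the decomposition group acts diagonally -/
  diag : ∀ σ ∈ P.decompositionSubgroup ℚ, ∀ i, ρ.ρ σ (b i) = ξ i σ • b i
  /-- the eigenvalues of every Frobenius reduce to `α`, `β` -/
  frob : ∀ φ : AlgebraicClosure ℚ ≃ₐ[ℚ] AlgebraicClosure ℚ, P.IsFrobeniusAt φ q →
    residue A (ξ 0 φ) = α ∧ residue A (ξ 1 φ) = β
  /-- on inertia the characters are residually trivial -/
  inertia_res : ∀ σ ∈ P.inertiaSubgroupIn ℚ, ∀ i, ξ i σ - 1 ∈ maximalIdeal A
  /-- on inertia the characters are inverse to each other -/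
  inertia_mul : ∀ σ ∈ P.inertiaSubgroupIn ℚ, ξ 0 σ * ξ 1 σ = 1
  /-- on inertia the characters have order dividing the `p`-part of `q - 1` -/
  inertia_pow : ∀ σ ∈ P.inertiaSubgroupIn ℚ, ∀ i, ξ i σ ^ p ^ padicValNat p (q - 1) = 1
  /-- the image of inertia is cyclic -/
  inertia_cyclic : ∃ τ ∈ P.inertiaSubgroupIn ℚ, ∀ σ ∈ P.inertiaSubgroupIn ℚ,
    ∃ k : ℕ, ∀ i, ξ i σ = ξ i τ ^ k

/-- **TW-GAL1.**  Local structure of a lift at a Taylor–Wiles prime. -/
def TWGal1Statement : Prop :=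
  ∀ (p q : ℕ) [Fact p.Prime] (_hq : q.Prime) (_hqp : p ∣ q - 1)
    (A : Type) [CommRing A] [IsLocalRing A] [IsNoetherianRing A]
    [IsAdicComplete (maximalIdeal A) A] (_hpA : (p : A) ∈ maximalIdeal A)
    (ρ : GaloisRepAdic A) (_hdet : ρ.DetIsCyclotomic p)
    (_hunr : ρ.residual.IsUnramifiedAt q)
    (P : ValuationSubring (AlgebraicClosure ℚ)) (_hP : P.LiesOverPrime q)
    (φ : AlgebraicClosure ℚ ≃ₐ[ℚ] AlgebraicClosure ℚ) (_hφ : P.IsFrobeniusAt φ q)
    (α β : ResidueField A) (_hαβ : α ≠ β)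
    (_hchar : LinearMap.charpoly (ρ.residual.ρ φ) = (X - C α) * (X - C β)),
    ∃ (b : Module.Basis (Fin 2) A ρ.V)
      (ξ : Fin 2 → (AlgebraicClosure ℚ ≃ₐ[ℚ] AlgebraicClosure ℚ) → A),
      TWDiag p q ρ P α β b ξ

/-- **Cyclotomic factorisation** (for TW-LGC): an element of inertia at `P | q` fixing the
`q`-th roots of unity is killed by the characters `ξ i`. -/
def TWGalCycStatement : Prop :=
  ∀ (p q : ℕ) [Fact p.Prime] (_hq : q.Prime) (_hqp : p ∣ q - 1)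
    (A : Type) [CommRing A] [IsLocalRing A] [IsNoetherianRing A]
    [IsAdicComplete (maximalIdeal A) A] (_hpA : (p : A) ∈ maximalIdeal A)
    (ρ : GaloisRepAdic A) (P : ValuationSubring (AlgebraicClosure ℚ)) (_hP : P.LiesOverPrime q)
    (α β : ResidueField A) (_hαβ : α ≠ β)
    (b : Module.Basis (Fin 2) A ρ.V)
    (ξ : Fin 2 → (AlgebraicClosure ℚ ≃ₐ[ℚ] AlgebraicClosure ℚ) → A)
    (_h : TWDiag p q ρ P α β b ξ),
    ∀ σ ∈ P.inertiaSubgroupIn ℚ, (∀ ζ : AlgebraicClosure ℚ, ζ ^ q = 1 → σ ζ = ζ) →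
      ∀ i, ξ i σ = 1

/-- **TW-GAL2.**  `R_Q / (δ_j - 1) ≅ R_min`.  `𝒟Q` is the condition of type `Q` (no condition at
the primes `qv j`), `𝒟min` the minimal one (`𝒟Q` + unramified at the `qv j`). -/
def TWGal2Statement : Prop :=
  ∀ (p : ℕ) [Fact p.Prime]
    (𝒪 : Type) [CommRing 𝒪] [IsDomain 𝒪] [IsDiscreteValuationRing 𝒪]
    [IsAdicComplete (maximalIdeal 𝒪) 𝒪] (_hp𝒪 : (p : 𝒪) ∈ maximalIdeal 𝒪)
    (ρbar : ResidualGaloisRep (ResidueField 𝒪))
    (𝒟Q 𝒟min : ∀ ⦃A : Type⦄ [CommRing A] [IsLocalRing A] [Algebra 𝒪 A], GaloisRepAdic A → Prop)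
    (_hDC : GaloisRep.IsDeformationCondition 𝒪 𝒟Q)
    (_hdet : ∀ ⦃A : Type⦄ [CommRing A] [IsLocalRing A] [Algebra 𝒪 A] (ρ : GaloisRepAdic A),
      𝒟Q ρ → ρ.DetIsCyclotomic p)
    (r : ℕ) (qv : Fin r → ℕ) (_hq : ∀ j, (qv j).Prime ∧ p ∣ qv j - 1)
    (_hmin : ∀ ⦃A : Type⦄ [CommRing A] [IsLocalRing A] [Algebra 𝒪 A] (ρ : GaloisRepAdic A),
      𝒟min ρ ↔ 𝒟Q ρ ∧ ∀ j, ρ.IsUnramifiedAt (qv j))
    (_hunr : ∀ j, ρbar.IsUnramifiedAt (qv j))
    (P : Fin r → ValuationSubring (AlgebraicClosure ℚ)) (_hP : ∀ j, (P j).LiesOverPrime (qv j))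
    (φ : Fin r → (AlgebraicClosure ℚ ≃ₐ[ℚ] AlgebraicClosure ℚ))
    (_hφ : ∀ j, (P j).IsFrobeniusAt (φ j) (qv j))
    (α β : Fin r → ResidueField 𝒪) (_hαβ : ∀ j, α j ≠ β j)
    (_hchar : ∀ j, LinearMap.charpoly (ρbar.ρ (φ j)) = (X - C (α j)) * (X - C (β j)))
    (DQ : GaloisRep.DeformationRingData 𝒪 ρbar 𝒟Q)
    (Dmin : GaloisRep.DeformationRingData 𝒪 ρbar 𝒟min),
    ∃ (δ : Fin r → DQ.R) (π : DQ.R →ₐ[𝒪] Dmin.R),
      Function.Surjective π ∧
      RingHom.ker (π : DQ.R →+* Dmin.R) = Ideal.span (Set.range fun j => δ j - 1) ∧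
      (∃ hπ : IsLocalHom (π : DQ.R →+* Dmin.R),
        (DQ.ρ.baseChangeAlong (π : DQ.R →+* Dmin.R) hπ).IsEquiv Dmin.ρ) ∧
      ∀ j, δ j ^ p ^ padicValNat p (qv j - 1) = 1 ∧
        ∃ (b : Module.Basis (Fin 2) DQ.R DQ.ρ.V)
          (ξ : Fin 2 → (AlgebraicClosure ℚ ≃ₐ[ℚ] AlgebraicClosure ℚ) → DQ.R),
          TWDiag p (qv j) DQ.ρ (P j)
            (ResidueField.map (algebraMap 𝒪 DQ.R) (α j))
            (ResidueField.map (algebraMap 𝒪 DQ.R) (β j)) b ξ ∧
          ∃ τ ∈ (P j).inertiaSubgroupIn ℚ, ξ 0 τ = δ j ∧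
            ∀ σ ∈ (P j).inertiaSubgroupIn ℚ, ∃ k : ℕ, ∀ i, ξ i σ = ξ i τ ^ k

end Fermat.Agent.S59.H59
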